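/-
Project S36 (Carayol), cell [ABEL3], ABSTRACT GROUP CORE (helper1).  Prefix `s36a_`.

The bookkeeping of the "abelian part" on the three-component fibre, as a statement about an additive
commutative group `G` (in the application `G = Additive E₂ˣ`):

* `UA UB UC` : the units at the three vertical valuations `VA`, `VB`, `VC`;
* `PA PB PC` : the principal units `1 + 𝔪(V_X)`;
* `K`        : the constant units `O^×`;
* `N1 N2`    : the two norms (to level `N'q`, along the inclusion and along `W`), composed with the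
               inclusions back into `E₂`.

Hypotheses (`x` a unit at all three valuations):
  (nA)  `N2 x ≡ q x  mod PA`                      [`A` alone over `G'`, purely inseparable of degree `q`]
  (nB)  `N1 x ≡ q x  mod PB`                      [`B` alone over `V`]
  (nC1) `x ≡ r mod PA`, `r ∈ K`  ⟹  `N1 x ≡ r + (q - 1) x  mod PC`
  (nC2) `x ≡ r mod PB`, `r ∈ K`  ⟹  `N2 x ≡ r + (q - 1) x  mod PC`
  (root) `m y ≡ c mod PC`, `c ∈ K` ⟹ `y ≡ u mod PC` for some `u ∈ K`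
  (WA)  weak approximation for the three valuations (on units).

Conclusion (`s36a_core`): if `N1 g = c1 + m r1`, `N2 g = c2 + m r2` with `c1 c2 ∈ K` then
`(q² - 1) g = c + m R + g'` with `c ∈ K` and `g' ∈ PA ∩ PB ∩ PC`.
-/
import Mathlib

set_option autoImplicit false
set_option linter.unusedSectionVars false
set_option linter.unusedVariables false

namespace Fermat.Agent.S36

section Core

variable {G : Type*} [AddCommGroup G]

/-- **[ABEL3], abstract core.** -/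
theorem s36a_core (UA UB UC PA PB PC K : AddSubgroup G) (N1 N2 : G →+ G) (q m : ℤ)
    (hPA : PA ≤ UA) (hPB : PB ≤ UB) (hPC : PC ≤ UC)
    (hKA : K ≤ UA) (hKB : K ≤ UB) (hKC : K ≤ UC)
    (hKP : ∀ c ∈ K, c ∈ PC → c ∈ PA ∧ c ∈ PB)
    (hsatA : ∀ x : G, m • x ∈ UA → x ∈ UA) (hsatB : ∀ x : G, m • x ∈ UB → x ∈ UB)
    (hsatC : ∀ x : G, m • x ∈ UC → x ∈ UC)
    (hnA : ∀ x, x ∈ UA → x ∈ UB → x ∈ UC → N2 x - q • x ∈ PA)
    (hnB : ∀ x, x ∈ UA → x ∈ UB → x ∈ UC → N1 x - q • x ∈ PB)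
    (hnC1 : ∀ x, x ∈ UA → x ∈ UB → x ∈ UC → ∀ r ∈ K, x - r ∈ PA →
      N1 x - (r + (q - 1) • x) ∈ PC)
    (hnC2 : ∀ x, x ∈ UA → x ∈ UB → x ∈ UC → ∀ r ∈ K, x - r ∈ PB →
      N2 x - (r + (q - 1) • x) ∈ PC)
    (hroot : ∀ y ∈ UC, ∀ c ∈ K, m • y - c ∈ PC → ∃ u ∈ K, y - u ∈ PC)
    (hWA : ∀ sA ∈ UA, ∀ sB ∈ UB, ∀ sC ∈ UC, ∃ R, R - sA ∈ PA ∧ R - sB ∈ PB ∧ R - sC ∈ PC)
    (a b : ℤ) (hab : a * q + b * m = 1)
    (g : G) (hgA : g ∈ UA) (hgB : g ∈ UB) (hgC : g ∈ UC) (c1 c2 : G) (hc1 : c1 ∈ K)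
    (hc2 : c2 ∈ K) (r1 r2 : G) (h1 : N1 g = c1 + m • r1) (h2 : N2 g = c2 + m • r2) :
    ∃ c ∈ K, ∃ R g' : G, g' ∈ PA ∧ g' ∈ PB ∧ g' ∈ PC ∧
      (q ^ 2 - 1) • g = c + m • R + g' := by
  -- Step A
  have hA0 := hnA g hgA hgB hgC
  have hB0 := hnB g hgA hgB hgC
  have hr2 : r2 ∈ UA := by
    apply hsatA
    have : m • r2 = (N2 g - q • g) + q • g - c2 := by rw [h2]; abel
    rw [this]
    exact UA.sub_mem (UA.add_mem (hPA hA0) (UA.zsmul_mem hgA q)) (hKA hc2)
  have hr1 : r1 ∈ UB := by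
    apply hsatB
    have : m • r1 = (N1 g - q • g) + q • g - c1 := by rw [h1]; abel
    rw [this]
    exact UB.sub_mem (UB.add_mem (hPB hB0) (UB.zsmul_mem hgB q)) (hKB hc1)
  set sA : G := a • r2 + b • g with hsA
  set sB : G := a • r1 + b • g with hsB
  have hsAU : sA ∈ UA := UA.add_mem (UA.zsmul_mem hr2 a) (UA.zsmul_mem hgA b)
  have hsBU : sB ∈ UB := UB.add_mem (UB.zsmul_mem hr1 a) (UB.zsmul_mem hgB b)
  have hgA1 : g - (a • c2 + m • sA) ∈ PA := by
    have : g - (a • c2 + m • sA) = (-a) • (N2 g - q • g) := by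
      rw [h2, hsA]
      linear_combination (norm := module) hab.symm • g
    rw [this]
    exact PA.zsmul_mem hA0 _
  have hgB1 : g - (a • c1 + m • sB) ∈ PB := by
    have : g - (a • c1 + m • sB) = (-a) • (N1 g - q • g) := by
      rw [h1, hsB]
      linear_combination (norm := module) hab.symm • g
    rw [this]
    exact PB.zsmul_mem hB0 _
  -- Step C: first approximation
  obtain ⟨R1, hR1A, hR1B, hR1C⟩ := hWA sA hsAU sB hsBU 0 UC.zero_mem
  have hR1UA : R1 ∈ UA := by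
    have : R1 = (R1 - sA) + sA := by abel
    rw [this]; exact UA.add_mem (hPA hR1A) hsAU
  have hR1UB : R1 ∈ UB := by
    have : R1 = (R1 - sB) + sB := by abel
    rw [this]; exact UB.add_mem (hPB hR1B) hsBU
  have hR1UC : R1 ∈ UC := by
    have : R1 = (R1 - 0) := by abel
    rw [this]; exact hPC hR1C
  set g1 : G := g - m • R1 with hg1
  have hg1A : g1 ∈ UA := UA.sub_mem hgA (UA.zsmul_mem hR1UA m)
  have hg1B : g1 ∈ UB := UB.sub_mem hgB (UB.zsmul_mem hR1UB m)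
  have hg1C : g1 ∈ UC := UC.sub_mem hgC (UC.zsmul_mem hR1UC m)
  have hg1PA : g1 - a • c2 ∈ PA := by
    have : g1 - a • c2 = (g - (a • c2 + m • sA)) - m • (R1 - sA) := by
      rw [hg1]; module
    rw [this]
    exact PA.sub_mem hgA1 (PA.zsmul_mem hR1A m)
  have hg1PB : g1 - a • c1 ∈ PB := by
    have : g1 - a • c1 = (g - (a • c1 + m • sB)) - m • (R1 - sB) := by
      rw [hg1]; module
    rw [this]
    exact PB.sub_mem hgB1 (PB.zsmul_mem hR1B m)
  -- Step D
  have hD1 := hnC1 g1 hg1A hg1B hg1C (a • c2) (K.zsmul_mem hc2 a) hg1PA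
  have hD2 := hnC2 g1 hg1A hg1B hg1C (a • c1) (K.zsmul_mem hc1 a) hg1PB
  set sC : G := r1 - N1 R1 with hsC
  set sC' : G := r2 - N2 R1 with hsC'
  have hN1g1 : N1 g1 = c1 + m • sC := by
    rw [hg1, map_sub, map_zsmul, h1, hsC]; module
  have hN2g1 : N2 g1 = c2 + m • sC' := by
    rw [hg1, map_sub, map_zsmul, h2, hsC']; module
  rw [hN1g1] at hD1
  rw [hN2g1] at hD2
  set γ : G := c1 - c2 with hγ
  have hγK : γ ∈ K := K.sub_mem hc1 hc2
  set y : G := sC' - sC with hy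
  have hyγ : m • y - (1 + a) • γ ∈ PC := by
    have : m • y - (1 + a) • γ =
        (c2 + m • sC' - (a • c1 + (q - 1) • g1)) - (c1 + m • sC - (a • c2 + (q - 1) • g1)) := by
      rw [hy, hγ]; module
    rw [this]
    exact PC.sub_mem hD2 hD1
  have hyU : y ∈ UC := by
    apply hsatC
    have : m • y = (m • y - (1 + a) • γ) + (1 + a) • γ := by abel
    rw [this]
    exact UC.add_mem (hPC hyγ) (hKC (K.zsmul_mem hγK _))
  obtain ⟨u, huK, hu⟩ := hroot y hyU ((1 + a) • γ) (K.zsmul_mem hγK _) hyγ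
  set δ : G := m • u - (1 + a) • γ with hδ
  have hδK : δ ∈ K := K.sub_mem (K.zsmul_mem huK m) (K.zsmul_mem hγK _)
  have hδC : δ ∈ PC := by
    have : δ = (m • y - (1 + a) • γ) - m • (y - u) := by
      rw [hδ]; module
    rw [this]
    exact PC.sub_mem hyγ (PC.zsmul_mem hu m)
  obtain ⟨hδA, hδB⟩ := hKP δ hδK hδC
  -- Step E: second approximation
  have hsCU : sC ∈ UC := by
    apply hsatC
    have : m • sC = (c1 + m • sC - (a • c2 + (q - 1) • g1)) + (a • c2 + (q - 1) • g1) - c1 := by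
      abel
    rw [this]
    exact UC.sub_mem (UC.add_mem (hPC hD1)
      (UC.add_mem (hKC (K.zsmul_mem hc2 a)) (UC.zsmul_mem hg1C _))) (hKC hc1)
  obtain ⟨R2, hR2A, hR2B, hR2C⟩ := hWA 0 UA.zero_mem 0 UB.zero_mem sC hsCU
  rw [sub_zero] at hR2A hR2B
  set g2 : G := (q - 1) • g1 - m • R2 with hg2
  have hg2A : g2 - ((q - 1) * a) • c2 ∈ PA := by
    have : g2 - ((q - 1) * a) • c2 = (q - 1) • (g1 - a • c2) - m • R2 := by
      rw [hg2]; module
    rw [this]
    exact PA.sub_mem (PA.zsmul_mem hg1PA _) (PA.zsmul_mem hR2A m)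
  have hg2B : g2 - ((q - 1) * a) • c1 ∈ PB := by
    have : g2 - ((q - 1) * a) • c1 = (q - 1) • (g1 - a • c1) - m • R2 := by
      rw [hg2]; module
    rw [this]
    exact PB.sub_mem (PB.zsmul_mem hg1PB _) (PB.zsmul_mem hR2B m)
  have hg2C : g2 - (c1 - a • c2) ∈ PC := by
    have : g2 - (c1 - a • c2) =
        -(c1 + m • sC - (a • c2 + (q - 1) • g1)) - m • (R2 - sC) := by
      rw [hg2]; module
    rw [this]
    exact PC.sub_mem (PC.neg_mem hD1) (PC.zsmul_mem hR2C m)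
  -- Step F: the constants
  set μ : G := q • u + b • γ with hμ
  have hμK : μ ∈ K := K.add_mem (K.zsmul_mem huK q) (K.zsmul_mem hγK b)
  have hq1 : (q + 1) • γ = m • μ - q • δ := by
    rw [hμ, hδ]
    linear_combination (norm := module) hab.symm • γ
  set νB : G := ((q - 1) * a) • μ with hνB
  set νC : G := μ + ((q + 1) * b) • c2 with hνC
  have hνBK : νB ∈ K := K.zsmul_mem hμK _
  have hνCK : νC ∈ K := K.add_mem hμK (K.zsmul_mem hc2 _)
  obtain ⟨R3, hR3A, hR3B, hR3C⟩ := hWA 0 UA.zero_mem νB (hKB hνBK) νC (hKC hνCK)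
  rw [sub_zero] at hR3A
  set kA : G := ((q + 1) * ((q - 1) * a)) • c2 with hkA
  refine ⟨kA, K.zsmul_mem hc2 _, (q ^ 2 - 1) • R1 + (q + 1) • R2 + R3,
    (q + 1) • g2 - kA - m • R3, ?_, ?_, ?_, ?_⟩
  · have : (q + 1) • g2 - kA - m • R3 = (q + 1) • (g2 - ((q - 1) * a) • c2) - m • R3 := by
      rw [hkA]; module
    rw [this]
    exact PA.sub_mem (PA.zsmul_mem hg2A _) (PA.zsmul_mem hR3A m)
  · have : (q + 1) • g2 - kA - m • R3 =
        (q + 1) • (g2 - ((q - 1) * a) • c1) - m • (R3 - νB) - ((q - 1) * a * q) • δ := by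
      have h3 : ((q - 1) * a) • ((q + 1) • γ) = ((q - 1) * a) • (m • μ - q • δ) := by rw [hq1]
      rw [hkA, hνB]
      rw [hγ] at h3
      linear_combination (norm := module) h3
    rw [this]
    exact PB.sub_mem (PB.sub_mem (PB.zsmul_mem hg2B _) (PB.zsmul_mem hR3B m))
      (PB.zsmul_mem hδB _)
  · have : (q + 1) • g2 - kA - m • R3 =
        (q + 1) • (g2 - (c1 - a • c2)) - m • (R3 - νC) - q • δ := by
      have h3 : (q + 1) • γ = m • μ - q • δ := hq1
      rw [hkA, hνC]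
      rw [hγ] at h3
      linear_combination (norm := module) h3 + hab.symm • ((q + 1) • c2)
    rw [this]
    exact PC.sub_mem (PC.sub_mem (PC.zsmul_mem hg2C _) (PC.zsmul_mem hR3C m))
      (PC.zsmul_mem hδC _)
  · rw [hg2, hg1]; module

end Core

end Fermat.Agent.S36
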