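/-
Project S36 (Carayol), cell [ABEL3] (helper1): the abstract core `s36a_core` in MULTIPLICATIVE form
(a commutative group `G`, in the application `G = E₂ˣ`).  Prefix `s36a_`.
-/
import Mathlib
import Fermat.Agent.S36.Abel3.Core

set_option autoImplicit false
set_option linter.unusedSectionVars false
set_option linter.unusedVariables false

namespace Fermat.Agent.S36

section CoreMul

variable {G : Type*} [CommGroup G]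

/-- **[ABEL3], abstract core, multiplicative form.** -/
theorem s36a_core_mul (UA UB UC PA PB PC K : Subgroup G) (N1 N2 : G →* G) (q m : ℤ)
    (hPA : PA ≤ UA) (hPB : PB ≤ UB) (hPC : PC ≤ UC)
    (hKA : K ≤ UA) (hKB : K ≤ UB) (hKC : K ≤ UC)
    (hKP : ∀ c ∈ K, c ∈ PC → c ∈ PA ∧ c ∈ PB)
    (hsatA : ∀ x : G, x ^ m ∈ UA → x ∈ UA) (hsatB : ∀ x : G, x ^ m ∈ UB → x ∈ UB)
    (hsatC : ∀ x : G, x ^ m ∈ UC → x ∈ UC)
    (hnA : ∀ x, x ∈ UA → x ∈ UB → x ∈ UC → N2 x / x ^ q ∈ PA)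
    (hnB : ∀ x, x ∈ UA → x ∈ UB → x ∈ UC → N1 x / x ^ q ∈ PB)
    (hnC1 : ∀ x, x ∈ UA → x ∈ UB → x ∈ UC → ∀ r ∈ K, x / r ∈ PA →
      N1 x / (r * x ^ (q - 1)) ∈ PC)
    (hnC2 : ∀ x, x ∈ UA → x ∈ UB → x ∈ UC → ∀ r ∈ K, x / r ∈ PB →
      N2 x / (r * x ^ (q - 1)) ∈ PC)
    (hroot : ∀ y ∈ UC, ∀ c ∈ K, y ^ m / c ∈ PC → ∃ u ∈ K, y / u ∈ PC)
    (hWA : ∀ sA ∈ UA, ∀ sB ∈ UB, ∀ sC ∈ UC, ∃ R, R / sA ∈ PA ∧ R / sB ∈ PB ∧ R / sC ∈ PC)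
    (a b : ℤ) (hab : a * q + b * m = 1)
    (g : G) (hgA : g ∈ UA) (hgB : g ∈ UB) (hgC : g ∈ UC) (c1 c2 : G) (hc1 : c1 ∈ K)
    (hc2 : c2 ∈ K) (r1 r2 : G) (h1 : N1 g = c1 * r1 ^ m) (h2 : N2 g = c2 * r2 ^ m) :
    ∃ c ∈ K, ∃ R g' : G, g' ∈ PA ∧ g' ∈ PB ∧ g' ∈ PC ∧
      g ^ (q ^ 2 - 1) = c * R ^ m * g' :=
  s36a_core (G := Additive G) (Subgroup.toAddSubgroup UA) (Subgroup.toAddSubgroup UB)
    (Subgroup.toAddSubgroup UC) (Subgroup.toAddSubgroup PA) (Subgroup.toAddSubgroup PB)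
    (Subgroup.toAddSubgroup PC) (Subgroup.toAddSubgroup K) (MonoidHom.toAdditive N1)
    (MonoidHom.toAdditive N2) q m (fun x hx => hPA hx) (fun x hx => hPB hx) (fun x hx => hPC hx)
    (fun x hx => hKA hx) (fun x hx => hKB hx) (fun x hx => hKC hx) hKP hsatA hsatB hsatC
    hnA hnB hnC1 hnC2 hroot hWA a b hab g hgA hgB hgC c1 c2 hc1 hc2 r1 r2 h1 h2

end CoreMul

end Fermat.Agent.S36
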