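/-
Project S36 (Carayol), cell [WA3] (helper1): WEAK APPROXIMATION for three valuation subrings of a
field (Mathlib only).  Prefix `s36wa_`.

`V₁ V₂ V₃` pairwise incomparable valuation subrings of a field `E`, each ARCHIMEDEAN
(`s36wa_Arch V`: for `0 ≠ z ∈ 𝔪(V)` and every `y ∈ E` some `z ^ k * y` lies in `𝔪(V)`; true for
Noetherian valuation rings, in particular DVRs: `s36wa_arch_of_noeth`).

* `s36wa_sep2`, `s36wa_sep3` : an element with a zero at `V₁` and poles at `V₂` (and `V₃`);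
* `s36wa_idem`    : approximate idempotents `e` (`e ≡ 1` at `V₁`, `e ≡ 0` at `V₂`, `V₃`, to any order);
* `s36wa_approx3` : `∀ x_i y_i, ∃ x, (x - x_i) * y_i ∈ 𝔪(V_i)`  (i = 1, 2, 3);
* `s36wa_approx3_one` : `∀ x_i, ∃ x, x - x_i ∈ 𝔪(V_i)`;
* `s36wa_exists_val3` : prescribed valuations: `∀ t_i ≠ 0, ∃ h ≠ 0, v_i(h) = v_i(t_i)` (i = 1, 2, 3);
* the two-valuation versions `s36wa_approx2`, `s36wa_exists_val2`.
-/
import Mathlib

set_option autoImplicit false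
set_option linter.unusedSectionVars false
set_option linter.unusedVariables false

namespace Fermat.Agent.S36

variable {E : Type*} [Field E]

/-- the archimedean property of a valuation subring. -/
def s36wa_Arch (V : ValuationSubring E) : Prop :=
  ∀ z : E, z ∈ V.nonunits → z ≠ 0 → ∀ y : E, ∃ k : ℕ, z ^ k * y ∈ V.nonunits

/-- a Noetherian valuation ring (e.g. a DVR) is archimedean. -/
theorem s36wa_arch_of_noeth (V : ValuationSubring E) [IsNoetherianRing V] : s36wa_Arch V := by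
  intro z hz hz0 y
  by_cases hy : y ∈ V
  · refine ⟨1, ?_⟩
    rw [pow_one, ValuationSubring.mem_nonunits_iff, map_mul]
    have h1 : V.valuation z < 1 := V.mem_nonunits_iff.1 hz
    have h2 : V.valuation y ≤ 1 := (V.valuation_le_one_iff y).2 hy
    calc V.valuation z * V.valuation y ≤ V.valuation z * 1 := by gcongr
      _ < 1 := by rwa [mul_one]
  · have hyi : y⁻¹ ∈ V := (V.mem_or_inv_mem y).resolve_left hy
    have hy0 : y ≠ 0 := by
      rintro rfl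
      exact hy V.zero_mem
    have hzV : z ∈ V := V.nonunits_subset hz
    set z' : V := ⟨z, hzV⟩ with hz'
    set y' : V := ⟨y⁻¹, hyi⟩ with hy'
    have hy'0 : y' ≠ 0 := by
      intro h
      have := congrArg Subtype.val h
      exact inv_ne_zero hy0 this
    have hz'm : z' ∈ IsLocalRing.maximalIdeal V := by
      rw [← ValuationSubring.coe_mem_nonunits_iff]
      exact hz
    have hI : Ideal.span ({z'} : Set V) ≠ ⊤ := by
      intro h
      rw [Ideal.span_singleton_eq_top] at h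
      exact hz'm h
    have hinf := Ideal.iInf_pow_eq_bot_of_isLocalRing (Ideal.span ({z'} : Set V)) hI
    have hex : ∃ k : ℕ, y' ∉ Ideal.span ({z'} : Set V) ^ k := by
      by_contra hcon
      push Not at hcon
      have : y' ∈ ⨅ i : ℕ, Ideal.span ({z'} : Set V) ^ i := by
        rw [Ideal.mem_iInf]
        exact hcon
      rw [hinf, Ideal.mem_bot] at this
      exact hy'0 this
    obtain ⟨k, hk⟩ := hex
    rw [Ideal.span_singleton_pow, Ideal.mem_span_singleton] at hk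
    have hdvd : y' ∣ z' ^ k := (ValuationRing.dvd_total (z' ^ k) y').resolve_left hk
    obtain ⟨t, ht⟩ := hdvd
    have ht' : z ^ k = y⁻¹ * (t : E) := by
      have := congrArg Subtype.val ht
      simpa using this
    refine ⟨k + 1, ?_⟩
    have h3 : z ^ (k + 1) * y = z * (t : E) := by
      rw [pow_succ', mul_assoc, ht']
      field_simp
    rw [h3, ValuationSubring.mem_nonunits_iff, map_mul]
    have h1 : V.valuation z < 1 := V.mem_nonunits_iff.1 hz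
    have h2 : V.valuation (t : E) ≤ 1 := V.valuation_le_one t
    calc V.valuation z * V.valuation (t : E) ≤ V.valuation z * 1 := by gcongr
      _ < 1 := by rwa [mul_one]

/-- two incomparable valuation subrings: an element with a zero at `V` and a pole at `W`. -/
theorem s36wa_sep2 (V W : ValuationSubring E) (h1 : ¬ V ≤ W) (h2 : ¬ W ≤ V) :
    ∃ z : E, z ≠ 0 ∧ z ∈ V.nonunits ∧ z⁻¹ ∈ W.nonunits := by
  obtain ⟨a, haV, haW⟩ := SetLike.not_le_iff_exists.1 h1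
  obtain ⟨b, hbW, hbV⟩ := SetLike.not_le_iff_exists.1 h2
  have ha0 : a ≠ 0 := by
    rintro rfl
    exact haW W.zero_mem
  have hb0 : b ≠ 0 := by
    rintro rfl
    exact hbV V.zero_mem
  refine ⟨a * b⁻¹, mul_ne_zero ha0 (inv_ne_zero hb0), ?_, ?_⟩
  · rw [ValuationSubring.mem_nonunits_iff, map_mul, map_inv₀]
    have h3 : V.valuation a ≤ 1 := (V.valuation_le_one_iff a).2 haV
    have h4 : 1 < V.valuation b := by
      by_contra hcon
      exact hbV ((V.valuation_le_one_iff b).1 (not_lt.1 hcon))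
    have h5 : 0 < V.valuation b := lt_trans zero_lt_one h4
    rw [mul_inv_lt_iff₀ h5, one_mul]
    exact lt_of_le_of_lt h3 h4
  · rw [mul_inv, inv_inv, ValuationSubring.mem_nonunits_iff, map_mul, map_inv₀]
    have h3 : W.valuation b ≤ 1 := (W.valuation_le_one_iff b).2 hbW
    have h4 : 1 < W.valuation a := by
      by_contra hcon
      exact haW ((W.valuation_le_one_iff a).1 (not_lt.1 hcon))
    have h5 : 0 < W.valuation a := lt_trans zero_lt_one h4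
    rw [mul_comm, mul_inv_lt_iff₀ h5, one_mul]
    exact lt_of_le_of_lt h3 h4

theorem s36wa_not_mem_of_inv (V : ValuationSubring E) {z : E} (hz0 : z ≠ 0)
    (hz : z⁻¹ ∈ V.nonunits) : z ∉ V := by
  rcases V.inv_mem_nonunits_iff.1 hz with h | h
  · exact absurd h hz0
  · exact h

theorem s36wa_inv_of_not_mem (V : ValuationSubring E) {z : E} (hz : z ∉ V) :
    z⁻¹ ∈ V.nonunits :=
  V.inv_mem_nonunits_iff.2 (Or.inr hz)

/-- three valuation subrings: an element with a zero at `V1` and poles at `V2`, `V3`. -/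
theorem s36wa_sep3 (V1 V2 V3 : ValuationSubring E) (h12 : ¬ V1 ≤ V2) (h21 : ¬ V2 ≤ V1)
    (h13 : ¬ V1 ≤ V3) (h31 : ¬ V3 ≤ V1) :
    ∃ z : E, z ≠ 0 ∧ z ∈ V1.nonunits ∧ z⁻¹ ∈ V2.nonunits ∧ z⁻¹ ∈ V3.nonunits := by
  obtain ⟨z2, hz20, hz21, hz22⟩ := s36wa_sep2 V1 V2 h12 h21
  obtain ⟨z3, hz30, hz31, hz33⟩ := s36wa_sep2 V1 V3 h13 h31
  by_cases h23 : z2 ∈ V3
  · by_cases h32 : z3 ∈ V2
    · have hn2 : z2 + z3 ∉ V2 := by
        intro h
        have : z2 = (z2 + z3) - z3 := by ring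
        apply s36wa_not_mem_of_inv V2 hz20 hz22
        rw [this]
        exact sub_mem h h32
      have hn3 : z2 + z3 ∉ V3 := by
        intro h
        have : z3 = (z2 + z3) - z2 := by ring
        apply s36wa_not_mem_of_inv V3 hz30 hz33
        rw [this]
        exact sub_mem h h23
      refine ⟨z2 + z3, ?_, add_mem hz21 hz31, s36wa_inv_of_not_mem V2 hn2,
        s36wa_inv_of_not_mem V3 hn3⟩
      rintro h
      rw [h] at hn2
      exact hn2 V2.zero_mem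
    · exact ⟨z3, hz30, hz31, s36wa_inv_of_not_mem V2 h32, hz33⟩
  · exact ⟨z2, hz20, hz21, hz22, s36wa_inv_of_not_mem V3 h23⟩

/-- the basic estimate: `w ∈ 𝔪(V)`, `w ^ k0 * y ∈ 𝔪(V)`, `k0 + 1 ≤ k` ⟹
`(1 + w ^ k)⁻¹ * (w ^ k * y) ∈ 𝔪(V)`. -/
theorem s36wa_aux (V : ValuationSubring E) {w : E} (hw : w ∈ V.nonunits) {k k0 : ℕ}
    (hk : k0 + 1 ≤ k) {y : E} (hy : w ^ k0 * y ∈ V.nonunits) :
    V.valuation (1 + w ^ k) = 1 ∧ (1 + w ^ k)⁻¹ * (w ^ k * y) ∈ V.nonunits := by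
  have h1 : V.valuation w < 1 := V.mem_nonunits_iff.1 hw
  have h2 : V.valuation (w ^ k) < 1 := by
    rw [map_pow]
    exact pow_lt_one₀ zero_le h1 (by omega)
  have h3 : V.valuation (1 + w ^ k) = 1 := Valuation.map_one_add_of_lt _ h2
  refine ⟨h3, ?_⟩
  rw [ValuationSubring.mem_nonunits_iff, map_mul, map_inv₀, h3, inv_one, one_mul]
  have h4 : w ^ k * y = w ^ (k - k0) * (w ^ k0 * y) := by
    rw [← mul_assoc, ← pow_add]
    congr 2
    omega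
  rw [h4, map_mul]
  have h5 : V.valuation (w ^ (k - k0)) ≤ 1 := by
    rw [map_pow]
    exact pow_le_one₀ zero_le h1.le
  have h6 : V.valuation (w ^ k0 * y) < 1 := V.mem_nonunits_iff.1 hy
  calc V.valuation (w ^ (k - k0)) * V.valuation (w ^ k0 * y)
      ≤ 1 * V.valuation (w ^ k0 * y) := by gcongr
    _ < 1 := by rwa [one_mul]

/-- approximate idempotents. -/
theorem s36wa_idem (V1 V2 V3 : ValuationSubring E) (ha1 : s36wa_Arch V1) (ha2 : s36wa_Arch V2)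
    (ha3 : s36wa_Arch V3) {z : E} (hz0 : z ≠ 0) (hz1 : z ∈ V1.nonunits)
    (hz2 : z⁻¹ ∈ V2.nonunits) (hz3 : z⁻¹ ∈ V3.nonunits) (y1 y2 y3 : E) :
    ∃ e : E, (e - 1) * y1 ∈ V1.nonunits ∧ e * y2 ∈ V2.nonunits ∧ e * y3 ∈ V3.nonunits := by
  obtain ⟨k1, hk1⟩ := ha1 z hz1 hz0 y1
  obtain ⟨k2, hk2⟩ := ha2 z⁻¹ hz2 (inv_ne_zero hz0) y2
  obtain ⟨k3, hk3⟩ := ha3 z⁻¹ hz3 (inv_ne_zero hz0) y3
  set k := k1 + k2 + k3 + 1 with hk
  obtain ⟨hu1, hm1⟩ := s36wa_aux V1 hz1 (k := k) (k0 := k1) (by omega) hk1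
  obtain ⟨hu2, hm2⟩ := s36wa_aux V2 hz2 (k := k) (k0 := k2) (by omega) hk2
  obtain ⟨hu3, hm3⟩ := s36wa_aux V3 hz3 (k := k) (k0 := k3) (by omega) hk3
  have hne1 : (1 + z ^ k) ≠ 0 := by
    intro h
    rw [h, map_zero] at hu1
    exact zero_ne_one hu1
  have hne2 : (1 + z⁻¹ ^ k) ≠ 0 := by
    intro h
    rw [h, map_zero] at hu2
    exact zero_ne_one hu2
  have hzk : z ^ k ≠ 0 := pow_ne_zero k hz0
  have hkey : (1 + z ^ k)⁻¹ = (1 + z⁻¹ ^ k)⁻¹ * z⁻¹ ^ k := by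
    rw [inv_pow] at hne2 ⊢
    rw [eq_comm, ← mul_inv, inv_inj]
    field_simp
    ring
  refine ⟨(1 + z ^ k)⁻¹, ?_, ?_, ?_⟩
  · have : ((1 + z ^ k)⁻¹ - 1) * y1 = -((1 + z ^ k)⁻¹ * (z ^ k * y1)) := by
      field_simp
      ring
    rw [this]
    exact neg_mem hm1
  · have : (1 + z ^ k)⁻¹ * y2 = (1 + z⁻¹ ^ k)⁻¹ * (z⁻¹ ^ k * y2) := by
      rw [hkey, mul_assoc]
    rw [this]
    exact hm2
  · have : (1 + z ^ k)⁻¹ * y3 = (1 + z⁻¹ ^ k)⁻¹ * (z⁻¹ ^ k * y3) := by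
      rw [hkey, mul_assoc]
    rw [this]
    exact hm3

/-- **Weak approximation for three valuations**, with scale factors. -/
theorem s36wa_approx3 (V1 V2 V3 : ValuationSubring E) (h12 : ¬ V1 ≤ V2) (h21 : ¬ V2 ≤ V1)
    (h13 : ¬ V1 ≤ V3) (h31 : ¬ V3 ≤ V1) (h23 : ¬ V2 ≤ V3) (h32 : ¬ V3 ≤ V2)
    (ha1 : s36wa_Arch V1) (ha2 : s36wa_Arch V2) (ha3 : s36wa_Arch V3)
    (x1 x2 x3 y1 y2 y3 : E) :
    ∃ x : E, (x - x1) * y1 ∈ V1.nonunits ∧ (x - x2) * y2 ∈ V2.nonunits ∧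
      (x - x3) * y3 ∈ V3.nonunits := by
  obtain ⟨z1, hz10, hz11, hz12, hz13⟩ := s36wa_sep3 V1 V2 V3 h12 h21 h13 h31
  obtain ⟨z2, hz20, hz22, hz21, hz23⟩ := s36wa_sep3 V2 V1 V3 h21 h12 h23 h32
  obtain ⟨z3, hz30, hz33, hz31, hz32⟩ := s36wa_sep3 V3 V1 V2 h31 h13 h32 h23
  obtain ⟨e1, he11, he12, he13⟩ := s36wa_idem V1 V2 V3 ha1 ha2 ha3 hz10 hz11 hz12 hz13
    (x1 * y1) (x1 * y2) (x1 * y3)
  obtain ⟨e2, he22, he21, he23⟩ := s36wa_idem V2 V1 V3 ha2 ha1 ha3 hz20 hz22 hz21 hz23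
    (x2 * y2) (x2 * y1) (x2 * y3)
  obtain ⟨e3, he33, he31, he32⟩ := s36wa_idem V3 V1 V2 ha3 ha1 ha2 hz30 hz33 hz31 hz32
    (x3 * y3) (x3 * y1) (x3 * y2)
  refine ⟨e1 * x1 + e2 * x2 + e3 * x3, ?_, ?_, ?_⟩
  · have : (e1 * x1 + e2 * x2 + e3 * x3 - x1) * y1 =
        (e1 - 1) * (x1 * y1) + e2 * (x2 * y1) + e3 * (x3 * y1) := by ring
    rw [this]
    exact add_mem (add_mem he11 he21) he31
  · have : (e1 * x1 + e2 * x2 + e3 * x3 - x2) * y2 =
        e1 * (x1 * y2) + (e2 - 1) * (x2 * y2) + e3 * (x3 * y2) := by ring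
    rw [this]
    exact add_mem (add_mem he12 he22) he32
  · have : (e1 * x1 + e2 * x2 + e3 * x3 - x3) * y3 =
        e1 * (x1 * y3) + e2 * (x2 * y3) + (e3 - 1) * (x3 * y3) := by ring
    rw [this]
    exact add_mem (add_mem he13 he23) he33

/-- **Weak approximation for three valuations** (first order). -/
theorem s36wa_approx3_one (V1 V2 V3 : ValuationSubring E) (h12 : ¬ V1 ≤ V2) (h21 : ¬ V2 ≤ V1)
    (h13 : ¬ V1 ≤ V3) (h31 : ¬ V3 ≤ V1) (h23 : ¬ V2 ≤ V3) (h32 : ¬ V3 ≤ V2)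
    (ha1 : s36wa_Arch V1) (ha2 : s36wa_Arch V2) (ha3 : s36wa_Arch V3) (x1 x2 x3 : E) :
    ∃ x : E, x - x1 ∈ V1.nonunits ∧ x - x2 ∈ V2.nonunits ∧ x - x3 ∈ V3.nonunits := by
  obtain ⟨x, h1, h2, h3⟩ := s36wa_approx3 V1 V2 V3 h12 h21 h13 h31 h23 h32 ha1 ha2 ha3
    x1 x2 x3 1 1 1
  rw [mul_one] at h1 h2 h3
  exact ⟨x, h1, h2, h3⟩

/-- `(x - t) * t⁻¹ ∈ 𝔪(V)` ⟹ `v(x) = v(t)`. -/
theorem s36wa_val_eq (V : ValuationSubring E) {x t : E} (ht : t ≠ 0)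
    (h : (x - t) * t⁻¹ ∈ V.nonunits) : V.valuation x = V.valuation t := by
  have h1 : V.valuation ((x - t) * t⁻¹) < 1 := V.mem_nonunits_iff.1 h
  have h2 : x * t⁻¹ = 1 + (x - t) * t⁻¹ := by
    field_simp
    ring
  have h3 : V.valuation (x * t⁻¹) = 1 := by
    rw [h2]
    exact Valuation.map_one_add_of_lt _ h1
  rw [map_mul, map_inv₀] at h3
  have ht' : V.valuation t ≠ 0 := (Valuation.ne_zero_iff _).2 ht
  rw [mul_inv_eq_one₀ ht'] at h3
  exact h3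

/-- **Prescribed valuations** at three incomparable archimedean valuation subrings. -/
theorem s36wa_exists_val3 (V1 V2 V3 : ValuationSubring E) (h12 : ¬ V1 ≤ V2) (h21 : ¬ V2 ≤ V1)
    (h13 : ¬ V1 ≤ V3) (h31 : ¬ V3 ≤ V1) (h23 : ¬ V2 ≤ V3) (h32 : ¬ V3 ≤ V2)
    (ha1 : s36wa_Arch V1) (ha2 : s36wa_Arch V2) (ha3 : s36wa_Arch V3) (t1 t2 t3 : E)
    (ht1 : t1 ≠ 0) (ht2 : t2 ≠ 0) (ht3 : t3 ≠ 0) :
    ∃ h : E, h ≠ 0 ∧ V1.valuation h = V1.valuation t1 ∧ V2.valuation h = V2.valuation t2 ∧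
      V3.valuation h = V3.valuation t3 := by
  obtain ⟨x, h1, h2, h3⟩ := s36wa_approx3 V1 V2 V3 h12 h21 h13 h31 h23 h32 ha1 ha2 ha3
    t1 t2 t3 t1⁻¹ t2⁻¹ t3⁻¹
  have e1 := s36wa_val_eq V1 ht1 h1
  refine ⟨x, ?_, e1, s36wa_val_eq V2 ht2 h2, s36wa_val_eq V3 ht3 h3⟩
  rintro rfl
  rw [map_zero] at e1
  exact (Valuation.ne_zero_iff _).2 ht1 e1.symm

/-! ### two valuations -/

/-- **Weak approximation for two valuations**, with scale factors. -/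
theorem s36wa_approx2 (V1 V2 : ValuationSubring E) (h12 : ¬ V1 ≤ V2) (h21 : ¬ V2 ≤ V1)
    (ha1 : s36wa_Arch V1) (ha2 : s36wa_Arch V2) (x1 x2 y1 y2 : E) :
    ∃ x : E, (x - x1) * y1 ∈ V1.nonunits ∧ (x - x2) * y2 ∈ V2.nonunits := by
  obtain ⟨z1, hz10, hz11, hz12⟩ := s36wa_sep2 V1 V2 h12 h21
  obtain ⟨z2, hz20, hz22, hz21⟩ := s36wa_sep2 V2 V1 h21 h12
  obtain ⟨e1, he11, he12, -⟩ := s36wa_idem V1 V2 V2 ha1 ha2 ha2 hz10 hz11 hz12 hz12
    (x1 * y1) (x1 * y2) (x1 * y2)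
  obtain ⟨e2, he22, he21, -⟩ := s36wa_idem V2 V1 V1 ha2 ha1 ha1 hz20 hz22 hz21 hz21
    (x2 * y2) (x2 * y1) (x2 * y1)
  refine ⟨e1 * x1 + e2 * x2, ?_, ?_⟩
  · have : (e1 * x1 + e2 * x2 - x1) * y1 = (e1 - 1) * (x1 * y1) + e2 * (x2 * y1) := by ring
    rw [this]
    exact add_mem he11 he21
  · have : (e1 * x1 + e2 * x2 - x2) * y2 = e1 * (x1 * y2) + (e2 - 1) * (x2 * y2) := by ring
    rw [this]
    exact add_mem he12 he22

/-- **Prescribed valuations** at two incomparable archimedean valuation subrings. -/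
theorem s36wa_exists_val2 (V1 V2 : ValuationSubring E) (h12 : ¬ V1 ≤ V2) (h21 : ¬ V2 ≤ V1)
    (ha1 : s36wa_Arch V1) (ha2 : s36wa_Arch V2) (t1 t2 : E) (ht1 : t1 ≠ 0) (ht2 : t2 ≠ 0) :
    ∃ h : E, h ≠ 0 ∧ V1.valuation h = V1.valuation t1 ∧ V2.valuation h = V2.valuation t2 := by
  obtain ⟨x, h1, h2⟩ := s36wa_approx2 V1 V2 h12 h21 ha1 ha2 t1 t2 t1⁻¹ t2⁻¹
  have e1 := s36wa_val_eq V1 ht1 h1
  refine ⟨x, ?_, e1, s36wa_val_eq V2 ht2 h2⟩
  rintro rfl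
  rw [map_zero] at e1
  exact (Valuation.ne_zero_iff _).2 ht1 e1.symm

end Fermat.Agent.S36
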