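/-
Project S36 (Carayol), cell [ABEL3], FIELD FORM (helper1).  Prefix `s36a_`.

`E` a field (the level-`N'q²` cover field `E₂`), `L → E` the constants with valuation subring `O`,
`VA VB VC` three valuation subrings of `E` lying over `O` (the three vertical valuations),
`N1 N2 : E →* E` the two norms to level `N'q` composed with the inclusions, `q.Coprime m`.

Hypotheses in ELEMENT form, for `x` a unit at `VA`, `VB`, `VC`:
  (nA)   `N2 x - x ^ q ∈ 𝔪(VA)`,
  (nB)   `N1 x - x ^ q ∈ 𝔪(VB)`,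
  (nC1)  `r ∈ O^×`, `x - r ∈ 𝔪(VA)` ⟹ `N1 x - r * x ^ (q - 1) ∈ 𝔪(VC)`,
  (nC2)  `r ∈ O^×`, `x - r ∈ 𝔪(VB)` ⟹ `N2 x - r * x ^ (q - 1) ∈ 𝔪(VC)`,
  (root) `y ∈ VC^×`, `c ∈ O^×`, `y ^ m - c ∈ 𝔪(VC)` ⟹ `∃ u ∈ O^×, y - u ∈ 𝔪(VC)`,
  (WA)   weak approximation for `VA`, `VB`, `VC` (`s36wa_approx3_one`).

`s36a_abel3`: if `g` is a unit at `VA`, `VB`, `VC` and `N1 g = c1 * r1 ^ m`, `N2 g = c2 * r2 ^ m` with
`c1 c2 ∈ O^×` then `g ^ (q² - 1) = c * R ^ m * g'` with `c ∈ O^×` and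
`g' - 1 ∈ 𝔪(VA) ∩ 𝔪(VB) ∩ 𝔪(VC)`.
`s36a_abel3_wa`: the same with (WA) replaced by incomparability + Noetherianity.
`s36a_normalise`: the normalisation `c_i ∈ O^×` from a common uniformiser.
-/
import Mathlib
import Fermat.Agent.S36.Abel3.CoreMul
import Fermat.Agent.S36.Abel3.WA3

set_option autoImplicit false
set_option linter.unusedSectionVars false
set_option linter.unusedVariables false

namespace Fermat.Agent.S36

section Field

variable {L E : Type*} [Field L] [Field E] [Algebra L E]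

/-- `x ≡ y mod 𝔪(V)`, `y` a unit ⟹ `x` a unit. -/
theorem s36a_unit_of_sub (V : ValuationSubring E) {x y : E} (hy : V.valuation y = 1)
    (h : x - y ∈ V.nonunits) : V.valuation x = 1 := by
  have h1 : V.valuation (x - y) < V.valuation y := by
    rw [hy]
    exact V.mem_nonunits_iff.1 h
  rw [← hy]
  exact Valuation.map_eq_of_sub_lt _ h1

/-- multiplicative congruence = additive congruence, for units. -/
theorem s36a_pug_iff (V : ValuationSubring E) (x y : Eˣ) (hy : V.valuation (y : E) = 1) :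
    x / y ∈ V.principalUnitGroup ↔ (x : E) - (y : E) ∈ V.nonunits := by
  rw [V.mem_principalUnitGroup_iff, V.mem_nonunits_iff]
  have h : ((x / y : Eˣ) : E) - 1 = ((x : E) - (y : E)) * (y : E)⁻¹ := by
    rw [Units.val_div_eq_div_val]
    have := y.ne_zero
    field_simp
  rw [h, map_mul, map_inv₀, hy, inv_one, mul_one]

/-- `v(x ^ m) = 1` ⟹ `v(x) = 1`. -/
theorem s36a_unit_of_pow (V : ValuationSubring E) {x : E} {m : ℕ} (hm : 1 ≤ m)
    (h : V.valuation (x ^ m) = 1) : V.valuation x = 1 := by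
  rw [map_pow] at h
  have hm0 : m ≠ 0 := by omega
  exact (pow_eq_one_iff_of_nonneg zero_le hm0).1 h

/-- a constant unit is a unit at every valuation subring over `O`. -/
theorem s36a_const_unit (O : ValuationSubring L) (V : ValuationSubring E)
    (hV : ∀ c : L, algebraMap L E c ∈ V ↔ c ∈ O) {c : L} (hc : O.valuation c = 1) :
    V.valuation (algebraMap L E c) = 1 := by
  have h1 : c ∈ O := (O.valuation_le_one_iff c).1 hc.le
  have h2 : c⁻¹ ∈ O := by
    apply (O.valuation_le_one_iff _).1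
    rw [map_inv₀, hc, inv_one]
  have h3 : V.valuation (algebraMap L E c) ≤ 1 := (V.valuation_le_one_iff _).2 ((hV c).2 h1)
  have h4 : V.valuation (algebraMap L E c⁻¹) ≤ 1 := (V.valuation_le_one_iff _).2 ((hV _).2 h2)
  have hc0 : c ≠ 0 := by
    rintro rfl
    rw [map_zero] at hc
    exact zero_ne_one hc
  have h5 : V.valuation (algebraMap L E c) ≠ 0 :=
    (Valuation.ne_zero_iff _).2 ((map_ne_zero _).2 hc0)
  rw [map_inv₀, map_inv₀, inv_le_one₀ (zero_lt_iff.2 h5)] at h4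
  exact le_antisymm h3 h4

/-- constants: `𝔪(V) ∩ L = 𝔪(O)`. -/
theorem s36a_const_nonunit (O : ValuationSubring L) (V : ValuationSubring E)
    (hV : ∀ c : L, algebraMap L E c ∈ V ↔ c ∈ O) (c : L) :
    algebraMap L E c ∈ V.nonunits ↔ c ∈ O.nonunits := by
  rw [V.mem_nonunits_iff_or, O.mem_nonunits_iff_or, map_eq_zero, ← map_inv₀, hV]

/-- **[ABEL3], field form.** -/
theorem s36a_abel3 (O : ValuationSubring L) (VA VB VC : ValuationSubring E) (N1 N2 : E →* E)
    (q m : ℕ) (hq : 1 ≤ q) (hm : 1 ≤ m) (hqm : Nat.Coprime q m)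
    (hVA : ∀ c : L, algebraMap L E c ∈ VA ↔ c ∈ O)
    (hVB : ∀ c : L, algebraMap L E c ∈ VB ↔ c ∈ O)
    (hVC : ∀ c : L, algebraMap L E c ∈ VC ↔ c ∈ O)
    (hnA : ∀ x : E, VA.valuation x = 1 → VB.valuation x = 1 → VC.valuation x = 1 →
      N2 x - x ^ q ∈ VA.nonunits)
    (hnB : ∀ x : E, VA.valuation x = 1 → VB.valuation x = 1 → VC.valuation x = 1 →
      N1 x - x ^ q ∈ VB.nonunits)
    (hnC1 : ∀ x : E, VA.valuation x = 1 → VB.valuation x = 1 → VC.valuation x = 1 →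
      ∀ r : L, O.valuation r = 1 → x - algebraMap L E r ∈ VA.nonunits →
        N1 x - algebraMap L E r * x ^ (q - 1) ∈ VC.nonunits)
    (hnC2 : ∀ x : E, VA.valuation x = 1 → VB.valuation x = 1 → VC.valuation x = 1 →
      ∀ r : L, O.valuation r = 1 → x - algebraMap L E r ∈ VB.nonunits →
        N2 x - algebraMap L E r * x ^ (q - 1) ∈ VC.nonunits)
    (hroot : ∀ y : E, VC.valuation y = 1 → ∀ c : L, O.valuation c = 1 →
      y ^ m - algebraMap L E c ∈ VC.nonunits →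
        ∃ u : L, O.valuation u = 1 ∧ y - algebraMap L E u ∈ VC.nonunits)
    (hWA : ∀ sA sB sC : E, ∃ R : E, R - sA ∈ VA.nonunits ∧ R - sB ∈ VB.nonunits ∧
      R - sC ∈ VC.nonunits)
    (g : E) (hgA : VA.valuation g = 1) (hgB : VB.valuation g = 1) (hgC : VC.valuation g = 1)
    (c1 c2 : L) (hc1 : O.valuation c1 = 1) (hc2 : O.valuation c2 = 1) (r1 r2 : E)
    (h1 : N1 g = algebraMap L E c1 * r1 ^ m) (h2 : N2 g = algebraMap L E c2 * r2 ^ m) :
    ∃ c : L, O.valuation c = 1 ∧ ∃ R g' : E, R ≠ 0 ∧ g' - 1 ∈ VA.nonunits ∧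
      g' - 1 ∈ VB.nonunits ∧ g' - 1 ∈ VC.nonunits ∧
      g ^ (q ^ 2 - 1) = algebraMap L E c * R ^ m * g' := by
  classical
  obtain ⟨a, b, hab⟩ : ∃ a b : ℤ, a * (q : ℤ) + b * (m : ℤ) = 1 :=
    Nat.Coprime.isCoprime hqm
  -- the constant units
  set K : Subgroup Eˣ := Subgroup.map (Units.map (algebraMap L E : L →* E)) O.unitGroup with hK
  have hKmem : ∀ c : Eˣ, c ∈ K ↔ ∃ u : L, O.valuation u = 1 ∧ algebraMap L E u = (c : E) := by
    intro c
    rw [hK, Subgroup.mem_map]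
    constructor
    · rintro ⟨u, hu, rfl⟩
      exact ⟨(u : L), (O.mem_unitGroup_iff u).1 hu, rfl⟩
    · rintro ⟨u, hu, huc⟩
      have hu0 : u ≠ 0 := by
        rintro rfl
        rw [map_zero] at hu
        exact zero_ne_one hu
      refine ⟨Units.mk0 u hu0, (O.mem_unitGroup_iff _).2 hu, ?_⟩
      apply Units.ext
      rw [Units.coe_map]
      exact huc
  have hKU : ∀ (V : ValuationSubring E), (∀ c : L, algebraMap L E c ∈ V ↔ c ∈ O) →
      K ≤ V.unitGroup := by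
    intro V hV c hc
    obtain ⟨u, hu, huc⟩ := (hKmem c).1 hc
    rw [V.mem_unitGroup_iff, ← huc]
    exact s36a_const_unit O V hV hu
  have hqz : ((q : ℤ) - 1) = ((q - 1 : ℕ) : ℤ) := (Nat.cast_pred hq).symm
  have hg0 : g ≠ 0 := by
    rintro rfl
    rw [map_zero] at hgA
    exact zero_ne_one hgA
  have hc10 : c1 ≠ 0 := by
    rintro rfl
    rw [map_zero] at hc1
    exact zero_ne_one hc1
  have hc20 : c2 ≠ 0 := by
    rintro rfl
    rw [map_zero] at hc2
    exact zero_ne_one hc2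
  have hN1g : N1 g ≠ 0 := (IsUnit.map N1 (isUnit_iff_ne_zero.2 hg0)).ne_zero
  have hN2g : N2 g ≠ 0 := (IsUnit.map N2 (isUnit_iff_ne_zero.2 hg0)).ne_zero
  have hr10 : r1 ≠ 0 := by
    rintro rfl
    rw [zero_pow (by omega), mul_zero] at h1
    exact hN1g h1
  have hr20 : r2 ≠ 0 := by
    rintro rfl
    rw [zero_pow (by omega), mul_zero] at h2
    exact hN2g h2
  have key := s36a_core_mul VA.unitGroup VB.unitGroup VC.unitGroup VA.principalUnitGroup
    VB.principalUnitGroup VC.principalUnitGroup K (Units.map N1) (Units.map N2) (q : ℤ) (m : ℤ)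
    VA.principal_units_le_units VB.principal_units_le_units VC.principal_units_le_units
    (hKU VA hVA) (hKU VB hVB) (hKU VC hVC) ?_ ?_ ?_ ?_ ?_ ?_ ?_ ?_ ?_ ?_ a b hab
    (Units.mk0 g hg0) hgA hgB hgC
    (Units.mk0 (algebraMap L E c1) ((map_ne_zero _).2 hc10))
    (Units.mk0 (algebraMap L E c2) ((map_ne_zero _).2 hc20))
    ((hKmem _).2 ⟨c1, hc1, rfl⟩) ((hKmem _).2 ⟨c2, hc2, rfl⟩)
    (Units.mk0 r1 hr10) (Units.mk0 r2 hr20) ?_ ?_
  · obtain ⟨c, hcK, R, g', hgA', hgB', hgC', hfin⟩ := key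
    obtain ⟨u, hu, huc⟩ := (hKmem c).1 hcK
    refine ⟨u, hu, (R : E), (g' : E), R.ne_zero, ?_, ?_, ?_, ?_⟩
    · exact VA.mem_nonunits_iff.2 ((VA.mem_principalUnitGroup_iff g').1 hgA')
    · exact VB.mem_nonunits_iff.2 ((VB.mem_principalUnitGroup_iff g').1 hgB')
    · exact VC.mem_nonunits_iff.2 ((VC.mem_principalUnitGroup_iff g').1 hgC')
    · have hpos : 0 < q ^ 2 := by positivity
      have hqq : ((q : ℤ) ^ 2 - 1) = ((q ^ 2 - 1 : ℕ) : ℤ) := by
        rw [Nat.cast_pred hpos, Nat.cast_pow]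
      rw [hqq, zpow_natCast, zpow_natCast] at hfin
      have := congrArg (fun z : Eˣ => (z : E)) hfin
      simp only [Units.val_pow_eq_pow_val, Units.val_mul, Units.val_mk0] at this
      rw [this, huc]
  -- hKP
  · intro c hcK hcC
    obtain ⟨u, hu, huc⟩ := (hKmem c).1 hcK
    have h3 : algebraMap L E (u - 1) ∈ VC.nonunits := by
      rw [map_sub, map_one, huc]
      exact VC.mem_nonunits_iff.2 ((VC.mem_principalUnitGroup_iff c).1 hcC)
    have h4 : u - 1 ∈ O.nonunits := (s36a_const_nonunit O VC hVC _).1 h3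
    constructor
    · rw [VA.mem_principalUnitGroup_iff, ← VA.mem_nonunits_iff, ← huc, ← map_one (algebraMap L E),
        ← map_sub]
      exact (s36a_const_nonunit O VA hVA _).2 h4
    · rw [VB.mem_principalUnitGroup_iff, ← VB.mem_nonunits_iff, ← huc, ← map_one (algebraMap L E),
        ← map_sub]
      exact (s36a_const_nonunit O VB hVB _).2 h4
  -- hsat
  · intro x hx
    rw [zpow_natCast, VA.mem_unitGroup_iff, Units.val_pow_eq_pow_val] at hx
    exact (VA.mem_unitGroup_iff x).2 (s36a_unit_of_pow VA hm hx)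
  · intro x hx
    rw [zpow_natCast, VB.mem_unitGroup_iff, Units.val_pow_eq_pow_val] at hx
    exact (VB.mem_unitGroup_iff x).2 (s36a_unit_of_pow VB hm hx)
  · intro x hx
    rw [zpow_natCast, VC.mem_unitGroup_iff, Units.val_pow_eq_pow_val] at hx
    exact (VC.mem_unitGroup_iff x).2 (s36a_unit_of_pow VC hm hx)
  -- hnA
  · intro x hxA hxB hxC
    rw [zpow_natCast]
    have hy : VA.valuation ((x ^ q : Eˣ) : E) = 1 := by
      rw [Units.val_pow_eq_pow_val, map_pow, (VA.mem_unitGroup_iff x).1 hxA, one_pow]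
    rw [s36a_pug_iff VA _ _ hy, Units.coe_map, Units.val_pow_eq_pow_val]
    exact hnA x hxA hxB hxC
  -- hnB
  · intro x hxA hxB hxC
    rw [zpow_natCast]
    have hy : VB.valuation ((x ^ q : Eˣ) : E) = 1 := by
      rw [Units.val_pow_eq_pow_val, map_pow, (VB.mem_unitGroup_iff x).1 hxB, one_pow]
    rw [s36a_pug_iff VB _ _ hy, Units.coe_map, Units.val_pow_eq_pow_val]
    exact hnB x hxA hxB hxC
  -- hnC1
  · intro x hxA hxB hxC r hrK hxr
    obtain ⟨u, hu, hur⟩ := (hKmem r).1 hrK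
    have hrA : VA.valuation (r : E) = 1 := by
      rw [← hur]; exact s36a_const_unit O VA hVA hu
    have hrC : VC.valuation (r : E) = 1 := by
      rw [← hur]; exact s36a_const_unit O VC hVC hu
    rw [s36a_pug_iff VA _ _ hrA, ← hur] at hxr
    rw [hqz, zpow_natCast]
    have hy : VC.valuation ((r * x ^ (q - 1) : Eˣ) : E) = 1 := by
      rw [Units.val_mul, Units.val_pow_eq_pow_val, map_mul, map_pow, hrC,
        (VC.mem_unitGroup_iff x).1 hxC, one_pow, one_mul]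
    rw [s36a_pug_iff VC _ _ hy, Units.coe_map, Units.val_mul, Units.val_pow_eq_pow_val, ← hur]
    exact hnC1 x hxA hxB hxC u hu hxr
  -- hnC2
  · intro x hxA hxB hxC r hrK hxr
    obtain ⟨u, hu, hur⟩ := (hKmem r).1 hrK
    have hrB : VB.valuation (r : E) = 1 := by
      rw [← hur]; exact s36a_const_unit O VB hVB hu
    have hrC : VC.valuation (r : E) = 1 := by
      rw [← hur]; exact s36a_const_unit O VC hVC hu
    rw [s36a_pug_iff VB _ _ hrB, ← hur] at hxr
    rw [hqz, zpow_natCast]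
    have hy : VC.valuation ((r * x ^ (q - 1) : Eˣ) : E) = 1 := by
      rw [Units.val_mul, Units.val_pow_eq_pow_val, map_mul, map_pow, hrC,
        (VC.mem_unitGroup_iff x).1 hxC, one_pow, one_mul]
    rw [s36a_pug_iff VC _ _ hy, Units.coe_map, Units.val_mul, Units.val_pow_eq_pow_val, ← hur]
    exact hnC2 x hxA hxB hxC u hu hxr
  -- hroot
  · intro y hyC c hcK hyc
    obtain ⟨u, hu, huc⟩ := (hKmem c).1 hcK
    have hcC : VC.valuation (c : E) = 1 := by
      rw [← huc]; exact s36a_const_unit O VC hVC hu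
    rw [zpow_natCast, s36a_pug_iff VC _ _ hcC, Units.val_pow_eq_pow_val, ← huc] at hyc
    obtain ⟨w, hw, hyw⟩ := hroot y hyC u hu hyc
    have hw0 : w ≠ 0 := by
      rintro rfl
      rw [map_zero] at hw
      exact zero_ne_one hw
    refine ⟨Units.mk0 (algebraMap L E w) ((map_ne_zero _).2 hw0), (hKmem _).2 ⟨w, hw, rfl⟩, ?_⟩
    have hwC : VC.valuation ((Units.mk0 (algebraMap L E w) ((map_ne_zero _).2 hw0) : Eˣ) : E)
        = 1 := by
      rw [Units.val_mk0]; exact s36a_const_unit O VC hVC hw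
    rw [s36a_pug_iff VC _ _ hwC, Units.val_mk0]
    exact hyw
  -- hWA
  · intro sA hsA sB hsB sC hsC
    obtain ⟨R, hRA, hRB, hRC⟩ := hWA (sA : E) (sB : E) (sC : E)
    have hRA1 : VA.valuation R = 1 := s36a_unit_of_sub VA ((VA.mem_unitGroup_iff sA).1 hsA) hRA
    have hR0 : R ≠ 0 := by
      rintro rfl
      rw [map_zero] at hRA1
      exact zero_ne_one hRA1
    refine ⟨Units.mk0 R hR0, ?_, ?_, ?_⟩
    · rw [s36a_pug_iff VA _ _ ((VA.mem_unitGroup_iff sA).1 hsA)]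
      exact hRA
    · rw [s36a_pug_iff VB _ _ ((VB.mem_unitGroup_iff sB).1 hsB)]
      exact hRB
    · rw [s36a_pug_iff VC _ _ ((VC.mem_unitGroup_iff sC).1 hsC)]
      exact hRC
  -- h1, h2
  · apply Units.ext
    rw [zpow_natCast, Units.coe_map, Units.val_mul, Units.val_pow_eq_pow_val]
    exact h1
  · apply Units.ext
    rw [zpow_natCast, Units.coe_map, Units.val_mul, Units.val_pow_eq_pow_val]
    exact h2

/-- **[ABEL3], field form**, with weak approximation PROVED: `VA VB VC` pairwise incomparable and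
Noetherian (e.g. DVRs). -/
theorem s36a_abel3_wa (O : ValuationSubring L) (VA VB VC : ValuationSubring E) (N1 N2 : E →* E)
    (q m : ℕ) (hq : 1 ≤ q) (hm : 1 ≤ m) (hqm : Nat.Coprime q m)
    [IsNoetherianRing VA] [IsNoetherianRing VB] [IsNoetherianRing VC]
    (hAB : ¬ VA ≤ VB) (hBA : ¬ VB ≤ VA) (hAC : ¬ VA ≤ VC) (hCA : ¬ VC ≤ VA)
    (hBC : ¬ VB ≤ VC) (hCB : ¬ VC ≤ VB)
    (hVA : ∀ c : L, algebraMap L E c ∈ VA ↔ c ∈ O)
    (hVB : ∀ c : L, algebraMap L E c ∈ VB ↔ c ∈ O)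
    (hVC : ∀ c : L, algebraMap L E c ∈ VC ↔ c ∈ O)
    (hnA : ∀ x : E, VA.valuation x = 1 → VB.valuation x = 1 → VC.valuation x = 1 →
      N2 x - x ^ q ∈ VA.nonunits)
    (hnB : ∀ x : E, VA.valuation x = 1 → VB.valuation x = 1 → VC.valuation x = 1 →
      N1 x - x ^ q ∈ VB.nonunits)
    (hnC1 : ∀ x : E, VA.valuation x = 1 → VB.valuation x = 1 → VC.valuation x = 1 →
      ∀ r : L, O.valuation r = 1 → x - algebraMap L E r ∈ VA.nonunits →
        N1 x - algebraMap L E r * x ^ (q - 1) ∈ VC.nonunits)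
    (hnC2 : ∀ x : E, VA.valuation x = 1 → VB.valuation x = 1 → VC.valuation x = 1 →
      ∀ r : L, O.valuation r = 1 → x - algebraMap L E r ∈ VB.nonunits →
        N2 x - algebraMap L E r * x ^ (q - 1) ∈ VC.nonunits)
    (hroot : ∀ y : E, VC.valuation y = 1 → ∀ c : L, O.valuation c = 1 →
      y ^ m - algebraMap L E c ∈ VC.nonunits →
        ∃ u : L, O.valuation u = 1 ∧ y - algebraMap L E u ∈ VC.nonunits)
    (g : E) (hgA : VA.valuation g = 1) (hgB : VB.valuation g = 1) (hgC : VC.valuation g = 1)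
    (c1 c2 : L) (hc1 : O.valuation c1 = 1) (hc2 : O.valuation c2 = 1) (r1 r2 : E)
    (h1 : N1 g = algebraMap L E c1 * r1 ^ m) (h2 : N2 g = algebraMap L E c2 * r2 ^ m) :
    ∃ c : L, O.valuation c = 1 ∧ ∃ R g' : E, R ≠ 0 ∧ g' - 1 ∈ VA.nonunits ∧
      g' - 1 ∈ VB.nonunits ∧ g' - 1 ∈ VC.nonunits ∧
      g ^ (q ^ 2 - 1) = algebraMap L E c * R ^ m * g' :=
  s36a_abel3 O VA VB VC N1 N2 q m hq hm hqm hVA hVB hVC hnA hnB hnC1 hnC2 hroot
    (s36wa_approx3_one VA VB VC hAB hBA hAC hCA hBC hCB (s36wa_arch_of_noeth VA)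
      (s36wa_arch_of_noeth VB) (s36wa_arch_of_noeth VC))
    g hgA hgB hgC c1 c2 hc1 hc2 r1 r2 h1 h2

/-- in a DVR valuation subring with uniformiser `ϖ`, every nonzero element of the field is
`ϖ ^ j` times a unit. -/
theorem s36a_exists_zpow_of_dvr (V : ValuationSubring E) [IsDiscreteValuationRing V] (ϖ : E)
    (hϖ : ϖ ∈ V) (hirr : Irreducible (⟨ϖ, hϖ⟩ : V)) (x : E) (hx : x ≠ 0) :
    ∃ j : ℤ, V.valuation (x * ϖ ^ j) = 1 := by
  have hϖ0 : ϖ ≠ 0 := by
    rintro rfl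
    exact hirr.ne_zero rfl
  have key : ∀ y : E, y ∈ V → y ≠ 0 → ∃ n : ℕ, V.valuation (y * (ϖ ^ n)⁻¹) = 1 := by
    intro y hy hy0
    have hy0' : (⟨y, hy⟩ : V) ≠ 0 := by
      intro h
      exact hy0 (congrArg Subtype.val h)
    obtain ⟨n, u, hu⟩ := IsDiscreteValuationRing.eq_unit_mul_pow_irreducible hy0' hirr
    refine ⟨n, ?_⟩
    have h2 : y = (u : V) * ϖ ^ n := by
      have := congrArg Subtype.val hu
      simpa using this
    have h3 : y * (ϖ ^ n)⁻¹ = ((u : V) : E) := by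
      rw [h2]
      field_simp
    rw [h3]
    exact V.valuation_unit u
  rcases V.mem_or_inv_mem x with h | h
  · obtain ⟨n, hn⟩ := key x h hx
    refine ⟨-(n : ℤ), ?_⟩
    rwa [zpow_neg, zpow_natCast]
  · obtain ⟨n, hn⟩ := key x⁻¹ h (inv_ne_zero hx)
    refine ⟨(n : ℤ), ?_⟩
    rw [zpow_natCast]
    have h3 : x * ϖ ^ n = (x⁻¹ * (ϖ ^ n)⁻¹)⁻¹ := by
      rw [mul_inv, inv_inv, inv_inv]
    rw [h3, map_inv₀, hn, inv_one]

/-- **Normalisation of the constant**: if `ϖ` is a common uniformiser of `O` and of `V`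
(`V` unramified over `O`) and `c * r ^ m` is a unit at `V`, then `c * r ^ m = c' * r' ^ m` with
`c' ∈ O^×` (and `r' = ϖ ^ i * r`). -/
theorem s36a_normalise (O : ValuationSubring L) (V : ValuationSubring E) (ϖ : L)
    (hϖO : ∀ c : L, c ≠ 0 → ∃ (j : ℤ) (u : L), O.valuation u = 1 ∧ c = ϖ ^ j * u)
    (hϖV : ∀ x : E, x ≠ 0 → ∃ j : ℤ, V.valuation (x * algebraMap L E ϖ ^ j) = 1)
    (hϖ1 : V.valuation (algebraMap L E ϖ) < 1) (hϖ0 : ϖ ≠ 0)
    (hV : ∀ c : L, algebraMap L E c ∈ V ↔ c ∈ O)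
    {m : ℕ} (hm : 1 ≤ m) (c : L) (hc : c ≠ 0) (r : E)
    (h : V.valuation (algebraMap L E c * r ^ m) = 1) :
    ∃ (c' : L) (i : ℤ), O.valuation c' = 1 ∧
      algebraMap L E c * r ^ m = algebraMap L E c' * (algebraMap L E ϖ ^ i * r) ^ m := by
  have hr0 : r ≠ 0 := by
    rintro rfl
    rw [zero_pow (by omega), mul_zero, map_zero] at h
    exact zero_ne_one h
  obtain ⟨j, u, hu, hcu⟩ := hϖO c hc
  obtain ⟨i, hi⟩ := hϖV r hr0
  have hϖE : algebraMap L E ϖ ≠ 0 := (map_ne_zero _).2 hϖ0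
  set t : V.ValueGroup := V.valuation (algebraMap L E ϖ) with ht
  have ht0 : t ≠ 0 := (Valuation.ne_zero_iff _).2 hϖE
  have huV : V.valuation (algebraMap L E u) = 1 := s36a_const_unit O V hV hu
  have hvr : V.valuation r = t ^ (-i) := by
    rw [map_mul, map_zpow₀] at hi
    rw [zpow_neg]
    exact eq_inv_of_mul_eq_one_left hi
  have e1 : V.valuation (algebraMap L E c) = t ^ j := by
    rw [hcu, map_mul (algebraMap L E), map_zpow₀ (algebraMap L E), map_mul, map_zpow₀, huV,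
      mul_one]
  have e2 : V.valuation (r ^ m) = t ^ (-i * (m : ℤ)) := by
    rw [map_pow, hvr, ← zpow_natCast, ← zpow_mul]
  have h2 : t ^ (j - i * (m : ℤ)) = 1 := by
    rw [map_mul, e1, e2, ← zpow_add₀ ht0] at h
    rw [← h]
    congr 1
    ring
  have h3 : j - i * (m : ℤ) = 0 := by
    by_contra hne
    rcases lt_or_gt_of_ne hne with hlt | hgt
    · have : 1 < t ^ (j - i * (m : ℤ)) := by
        have h4 : t ^ (j - i * (m : ℤ)) = (t ^ (-(j - i * (m : ℤ))))⁻¹ := by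
          rw [zpow_neg, inv_inv]
        rw [h4]
        obtain ⟨n, hn⟩ := Int.eq_ofNat_of_zero_le (by omega : 0 ≤ -(j - i * (m : ℤ)))
        rw [hn, zpow_natCast]
        have hn0 : n ≠ 0 := by omega
        have h5 : t ^ n < 1 := pow_lt_one₀ zero_le hϖ1 hn0
        have h6 : t ^ n ≠ 0 := pow_ne_zero _ ht0
        exact (one_lt_inv₀ (zero_lt_iff.2 h6)).2 h5
      rw [h2] at this
      exact lt_irrefl _ this
    · obtain ⟨n, hn⟩ := Int.eq_ofNat_of_zero_le (by omega : 0 ≤ (j - i * (m : ℤ)))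
      rw [hn, zpow_natCast] at h2
      have hn0 : n ≠ 0 := by omega
      have h5 : t ^ n < 1 := pow_lt_one₀ zero_le hϖ1 hn0
      rw [h2] at h5
      exact lt_irrefl _ h5
  refine ⟨u, i, hu, ?_⟩
  have hj : j = i * (m : ℤ) := by omega
  rw [hcu, hj, map_mul, map_zpow₀, mul_pow, zpow_mul, zpow_natCast]
  ring

end Field

end Fermat.Agent.S36
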