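/-
Project S36 (Carayol), cell [VERT-BOOK] (helper1): THE VERTICAL NORMALISATION of ruling (R1), in the
vocabulary of `S36/Abel3/Field.lean`, and the COMBINED statement [VERT] + [ABEL3].  Prefix `s36a_`.

`ordA ordB ordC : E → ℤ` are the three (normalised, up to a common sign `ε = ± 1`) vertical
valuations of `E = E₂` (`s36a_Ord V ord`: additive on `E^×`, `ord x = 0 ↔ x` a unit at `V`),
`ϖ ∈ L` a uniformiser of `O` with `ordA ϖ = ordB ϖ = ε`, `ordC ϖ = (q - 1) ε`, `zC` with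
`ordC zC = ε`; the norms satisfy
  `ordA (N1 x) = ordA x + ordC x`,  `ordB (N1 x) = q * ordB x`,
  `ordA (N2 x) = q * ordA x`,       `ordB (N2 x) = ordB x + ordC x`
(`s36nv_log_two` / `s36nv_log_one` of `S36/NormVal.lean`), and `N_i c = c ^ q` on constants.

* `s36a_vert` : if `N1 g = c1 r1^m`, `N2 g = c2 r2^m` (`c_i ∈ L^×`) then
  `g1 := g ^ (q + 1) * ϖ ^ j * (h ^ m)⁻¹` is a unit at `VA`, `VB`, `VC` for suitable `j`, `h`, and
  `N_i g1 = c_i' r_i'^m` again;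
* `s36a_vert_abel3` : under the hypotheses of `s36a_abel3` in addition:
  `g ^ ((q + 1) * (q² - 1)) = c * R ^ m * g'` with `g' - 1 ∈ 𝔪(VA) ∩ 𝔪(VB) ∩ 𝔪(VC)`, for EVERY
  `g ≠ 0` with `N1 g = c1 r1^m`, `N2 g = c2 r2^m`.
-/
import Mathlib
import Fermat.Agent.S36.Abel3.Field

set_option autoImplicit false
set_option linter.unusedSectionVars false
set_option linter.unusedVariables false

namespace Fermat.Agent.S36

section Vert

variable {L E : Type*} [Field L] [Field E] [Algebra L E]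

/-- `ord : E → ℤ` is a (ℤ-valued, additively written) valuation function attached to `V`:
additive on nonzero elements, and `ord x = 0` exactly for the units of `V`. -/
structure s36a_Ord (V : ValuationSubring E) (ord : E → ℤ) : Prop where
  mul : ∀ x y : E, x ≠ 0 → y ≠ 0 → ord (x * y) = ord x + ord y
  unit : ∀ x : E, x ≠ 0 → (ord x = 0 ↔ V.valuation x = 1)

namespace s36a_Ord

variable {V : ValuationSubring E} {ord : E → ℤ} (h : s36a_Ord V ord)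

include h

theorem one : ord 1 = 0 := (h.unit 1 one_ne_zero).2 (map_one _)

theorem inv {x : E} (hx : x ≠ 0) : ord x⁻¹ = - ord x := by
  have h1 := h.mul x x⁻¹ hx (inv_ne_zero hx)
  rw [mul_inv_cancel₀ hx, h.one] at h1
  omega

theorem pow {x : E} (hx : x ≠ 0) (n : ℕ) : ord (x ^ n) = n * ord x := by
  induction n with
  | zero => rw [pow_zero, h.one]; simp
  | succ n ih =>
    rw [pow_succ, h.mul _ _ (pow_ne_zero n hx) hx, ih]
    push_cast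
    ring

theorem zpow {x : E} (hx : x ≠ 0) (n : ℤ) : ord (x ^ n) = n * ord x := by
  obtain ⟨k, rfl | rfl⟩ := n.eq_nat_or_neg
  · rw [zpow_natCast, h.pow hx]
  · rw [zpow_neg, zpow_natCast, h.inv (pow_ne_zero k hx), h.pow hx]
    ring

theorem eq_of_val_eq {x t : E} (hx : x ≠ 0) (ht : t ≠ 0)
    (hv : V.valuation x = V.valuation t) : ord x = ord t := by
  have h1 : V.valuation (x * t⁻¹) = 1 := by
    rw [map_mul, map_inv₀, hv]
    exact mul_inv_cancel₀ ((Valuation.ne_zero_iff _).2 ht)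
  have h2 := (h.unit _ (mul_ne_zero hx (inv_ne_zero ht))).2 h1
  rw [h.mul _ _ hx (inv_ne_zero ht), h.inv ht] at h2
  omega

end s36a_Ord

theorem s36a_map_inv (N : E →* E) {x : E} (hx : x ≠ 0) : N x⁻¹ = (N x)⁻¹ := by
  have h1 : N x * N x⁻¹ = 1 := by rw [← map_mul, mul_inv_cancel₀ hx, map_one]
  exact eq_inv_of_mul_eq_one_right h1

theorem s36a_map_ne_zero (N : E →* E) {x : E} (hx : x ≠ 0) : N x ≠ 0 :=
  (IsUnit.map N (isUnit_iff_ne_zero.2 hx)).ne_zero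

theorem s36a_map_zpow (N : E →* E) {x : E} (hx : x ≠ 0) (n : ℤ) : N (x ^ n) = N x ^ n := by
  obtain ⟨k, rfl | rfl⟩ := n.eq_nat_or_neg
  · rw [zpow_natCast, zpow_natCast, map_pow]
  · rw [zpow_neg, zpow_neg, zpow_natCast, zpow_natCast, s36a_map_inv N (pow_ne_zero k hx),
      map_pow]

/-- **[VERT-BOOK]**: the vertical normalisation. -/
theorem s36a_vert (O : ValuationSubring L) (VA VB VC : ValuationSubring E) (N1 N2 : E →* E)
    (q m : ℕ) (hm : 1 ≤ m) (ordA ordB ordC : E → ℤ)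
    (hoA : s36a_Ord VA ordA) (hoB : s36a_Ord VB ordB) (hoC : s36a_Ord VC ordC)
    (hVA : ∀ c : L, algebraMap L E c ∈ VA ↔ c ∈ O)
    (hVB : ∀ c : L, algebraMap L E c ∈ VB ↔ c ∈ O)
    (ϖ : L) (hϖ0 : ϖ ≠ 0) (ε : ℤ) (hε : ε * ε = 1)
    (hϖA : ordA (algebraMap L E ϖ) = ε) (hϖB : ordB (algebraMap L E ϖ) = ε)
    (hϖC : ordC (algebraMap L E ϖ) = ((q : ℤ) - 1) * ε)
    (zC : E) (hzC0 : zC ≠ 0) (hzC : ordC zC = ε)
    (hϖO : ∀ c : L, c ≠ 0 → ∃ (j : ℤ) (u : L), O.valuation u = 1 ∧ c = ϖ ^ j * u)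
    (hN1A : ∀ x : E, x ≠ 0 → ordA (N1 x) = ordA x + ordC x)
    (hN1B : ∀ x : E, x ≠ 0 → ordB (N1 x) = (q : ℤ) * ordB x)
    (hN2A : ∀ x : E, x ≠ 0 → ordA (N2 x) = (q : ℤ) * ordA x)
    (hN2B : ∀ x : E, x ≠ 0 → ordB (N2 x) = ordB x + ordC x)
    (hNc1 : ∀ c : L, N1 (algebraMap L E c) = algebraMap L E c ^ q)
    (hNc2 : ∀ c : L, N2 (algebraMap L E c) = algebraMap L E c ^ q)
    (hWAv : ∀ t1 t2 t3 : E, t1 ≠ 0 → t2 ≠ 0 → t3 ≠ 0 → ∃ h : E, h ≠ 0 ∧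
      VA.valuation h = VA.valuation t1 ∧ VB.valuation h = VB.valuation t2 ∧
      VC.valuation h = VC.valuation t3)
    (g : E) (hg : g ≠ 0) (c1 c2 : L) (hc1 : c1 ≠ 0) (hc2 : c2 ≠ 0) (r1 r2 : E)
    (h1 : N1 g = algebraMap L E c1 * r1 ^ m) (h2 : N2 g = algebraMap L E c2 * r2 ^ m) :
    ∃ (j : ℤ) (h : E), h ≠ 0 ∧
      VA.valuation (g ^ (q + 1) * algebraMap L E ϖ ^ j * (h ^ m)⁻¹) = 1 ∧
      VB.valuation (g ^ (q + 1) * algebraMap L E ϖ ^ j * (h ^ m)⁻¹) = 1 ∧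
      VC.valuation (g ^ (q + 1) * algebraMap L E ϖ ^ j * (h ^ m)⁻¹) = 1 ∧
      ∃ (c1' c2' : L) (r1' r2' : E), c1' ≠ 0 ∧ c2' ≠ 0 ∧
        N1 (g ^ (q + 1) * algebraMap L E ϖ ^ j * (h ^ m)⁻¹) = algebraMap L E c1' * r1' ^ m ∧
        N2 (g ^ (q + 1) * algebraMap L E ϖ ^ j * (h ^ m)⁻¹) = algebraMap L E c2' * r2' ^ m := by
  have hϖE : algebraMap L E ϖ ≠ 0 := (map_ne_zero _).2 hϖ0
  have hc1E : algebraMap L E c1 ≠ 0 := (map_ne_zero _).2 hc1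
  have hc2E : algebraMap L E c2 ≠ 0 := (map_ne_zero _).2 hc2
  have hN1g : N1 g ≠ 0 := s36a_map_ne_zero N1 hg
  have hN2g : N2 g ≠ 0 := s36a_map_ne_zero N2 hg
  have hr1 : r1 ≠ 0 := by
    rintro rfl
    rw [zero_pow (by omega), mul_zero] at h1
    exact hN1g h1
  have hr2 : r2 ≠ 0 := by
    rintro rfl
    rw [zero_pow (by omega), mul_zero] at h2
    exact hN2g h2
  -- constants have the same order at `A` and `B`
  have hconst : ∀ k : L, k ≠ 0 → ordA (algebraMap L E k) = ordB (algebraMap L E k) := by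
    intro k hk
    obtain ⟨j, u, hu, hku⟩ := hϖO k hk
    have hu0 : u ≠ 0 := by
      rintro rfl
      rw [map_zero] at hu
      exact zero_ne_one hu
    have huE : algebraMap L E u ≠ 0 := (map_ne_zero _).2 hu0
    have hzE : algebraMap L E ϖ ^ j ≠ 0 := zpow_ne_zero _ hϖE
    rw [hku, map_mul, map_zpow₀, hoA.mul _ _ hzE huE, hoB.mul _ _ hzE huE, hoA.zpow hϖE,
      hoB.zpow hϖE, hϖA, hϖB, (hoA.unit _ huE).2 (s36a_const_unit O VA hVA hu),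
      (hoB.unit _ huE).2 (s36a_const_unit O VB hVB hu)]
  obtain ⟨a, ha⟩ : ∃ a, a = ordA g := ⟨_, rfl⟩
  obtain ⟨b, hb⟩ : ∃ b, b = ordB g := ⟨_, rfl⟩
  obtain ⟨c, hc⟩ : ∃ c, c = ordC g := ⟨_, rfl⟩
  -- the four valuation equations
  have e1A : a + c = ordA (algebraMap L E c1) + m * ordA r1 := by
    have := hN1A g hg
    rw [h1, hoA.mul _ _ hc1E (pow_ne_zero m hr1), hoA.pow hr1] at this
    rw [ha, hc]; linarith
  have e1B : (q : ℤ) * b = ordA (algebraMap L E c1) + m * ordB r1 := by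
    have := hN1B g hg
    rw [h1, hoB.mul _ _ hc1E (pow_ne_zero m hr1), hoB.pow hr1, ← hconst c1 hc1] at this
    rw [hb]; linarith
  have e2A : (q : ℤ) * a = ordA (algebraMap L E c2) + m * ordA r2 := by
    have := hN2A g hg
    rw [h2, hoA.mul _ _ hc2E (pow_ne_zero m hr2), hoA.pow hr2] at this
    rw [ha]; linarith
  have e2B : b + c = ordA (algebraMap L E c2) + m * ordB r2 := by
    have := hN2B g hg
    rw [h2, hoB.mul _ _ hc2E (pow_ne_zero m hr2), hoB.pow hr2, ← hconst c2 hc2] at this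
    rw [hb, hc]; linarith
  set s1 : ℤ := ordA r1 - ordB r1 with hs1
  set s2 : ℤ := ordA r2 - ordB r2 with hs2
  have eq1 : a + c - (q : ℤ) * b = m * s1 := by rw [hs1]; linarith
  have eq2 : (q : ℤ) * a - b - c = m * s2 := by rw [hs2]; linarith
  -- the correcting element
  set nB : ℤ := -(s1 + s2) with hnB
  set nC : ℤ := s1 - (q : ℤ) * s2 with hnC
  set tB : E := algebraMap L E ϖ ^ (ε * nB) with htB
  set tC : E := zC ^ (ε * nC) with htC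
  have htB0 : tB ≠ 0 := zpow_ne_zero _ hϖE
  have htC0 : tC ≠ 0 := zpow_ne_zero _ hzC0
  obtain ⟨h, hh0, hhA, hhB, hhC⟩ := hWAv 1 tB tC one_ne_zero htB0 htC0
  have ohA : ordA h = 0 := by rw [hoA.eq_of_val_eq hh0 one_ne_zero hhA, hoA.one]
  have ohB : ordB h = nB := by
    rw [hoB.eq_of_val_eq hh0 htB0 hhB, htB, hoB.zpow hϖE, hϖB]
    linear_combination nB * hε
  have ohC : ordC h = nC := by
    rw [hoC.eq_of_val_eq hh0 htC0 hhC, htC, hoC.zpow hzC0, hzC]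
    linear_combination nC * hε
  set j : ℤ := -(((q : ℤ) + 1) * a * ε) with hj
  have hzj : algebraMap L E ϖ ^ j ≠ 0 := zpow_ne_zero _ hϖE
  have hgq : g ^ (q + 1) ≠ 0 := pow_ne_zero _ hg
  have hhm : (h ^ m)⁻¹ ≠ 0 := inv_ne_zero (pow_ne_zero _ hh0)
  have hg1 : g ^ (q + 1) * algebraMap L E ϖ ^ j * (h ^ m)⁻¹ ≠ 0 :=
    mul_ne_zero (mul_ne_zero hgq hzj) hhm
  refine ⟨j, h, hh0, ?_, ?_, ?_, ?_⟩
  · rw [← hoA.unit _ hg1, hoA.mul _ _ (mul_ne_zero hgq hzj) hhm, hoA.mul _ _ hgq hzj,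
      hoA.pow hg, hoA.zpow hϖE, hoA.inv (pow_ne_zero _ hh0), hoA.pow hh0, ohA, hϖA, hj, ← ha]
    push_cast
    linear_combination (-(((q : ℤ) + 1) * a)) * hε
  · rw [← hoB.unit _ hg1, hoB.mul _ _ (mul_ne_zero hgq hzj) hhm, hoB.mul _ _ hgq hzj,
      hoB.pow hg, hoB.zpow hϖE, hoB.inv (pow_ne_zero _ hh0), hoB.pow hh0, ohB, hϖB, hj, ← hb,
      hnB]
    push_cast
    linear_combination (-(((q : ℤ) + 1) * a)) * hε - eq1 - eq2
  · rw [← hoC.unit _ hg1, hoC.mul _ _ (mul_ne_zero hgq hzj) hhm, hoC.mul _ _ hgq hzj,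
      hoC.pow hg, hoC.zpow hϖE, hoC.inv (pow_ne_zero _ hh0), hoC.pow hh0, ohC, hϖC, hj, ← hc,
      hnC]
    push_cast
    linear_combination (-(((q : ℤ) + 1) * a * ((q : ℤ) - 1))) * hε + eq1 - (q : ℤ) * eq2
  · have hN1h : N1 h ≠ 0 := s36a_map_ne_zero N1 hh0
    have hN2h : N2 h ≠ 0 := s36a_map_ne_zero N2 hh0
    refine ⟨c1 ^ (q + 1) * ϖ ^ ((q : ℤ) * j), c2 ^ (q + 1) * ϖ ^ ((q : ℤ) * j),
      r1 ^ (q + 1) * (N1 h)⁻¹, r2 ^ (q + 1) * (N2 h)⁻¹,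
      mul_ne_zero (pow_ne_zero _ hc1) (zpow_ne_zero _ hϖ0),
      mul_ne_zero (pow_ne_zero _ hc2) (zpow_ne_zero _ hϖ0), ?_, ?_⟩
    · have e : N1 (algebraMap L E ϖ ^ j) = (algebraMap L E ϖ ^ q) ^ j := by
        rw [s36a_map_zpow N1 hϖE, hNc1]
      have e' : algebraMap L E (ϖ ^ ((q : ℤ) * j)) = (algebraMap L E ϖ ^ q) ^ j := by
        rw [map_zpow₀, zpow_mul, zpow_natCast]
      rw [map_mul, map_mul, map_pow, e, s36a_map_inv N1 (pow_ne_zero _ hh0), map_pow, h1,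
        map_mul (algebraMap L E), map_pow (algebraMap L E), e']
      generalize (algebraMap L E ϖ ^ q) ^ j = Y
      ring
    · have e : N2 (algebraMap L E ϖ ^ j) = (algebraMap L E ϖ ^ q) ^ j := by
        rw [s36a_map_zpow N2 hϖE, hNc2]
      have e' : algebraMap L E (ϖ ^ ((q : ℤ) * j)) = (algebraMap L E ϖ ^ q) ^ j := by
        rw [map_zpow₀, zpow_mul, zpow_natCast]
      rw [map_mul, map_mul, map_pow, e, s36a_map_inv N2 (pow_ne_zero _ hh0), map_pow, h2,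
        map_mul (algebraMap L E), map_pow (algebraMap L E), e']
      generalize (algebraMap L E ϖ ^ q) ^ j = Y
      ring

/-- `ϖ` generates the value group of `V`, from an `ord` function with `ord ϖ = ± 1`. -/
theorem s36a_exists_zpow_of_ord {V : ValuationSubring E} {ord : E → ℤ} (ho : s36a_Ord V ord)
    {ϖ : E} (hϖ0 : ϖ ≠ 0) {ε : ℤ} (hε : ε * ε = 1) (hϖ : ord ϖ = ε) (x : E) (hx : x ≠ 0) :
    ∃ j : ℤ, V.valuation (x * ϖ ^ j) = 1 := by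
  refine ⟨-(ε * ord x), ?_⟩
  rw [← ho.unit _ (mul_ne_zero hx (zpow_ne_zero _ hϖ0)), ho.mul _ _ hx (zpow_ne_zero _ hϖ0),
    ho.zpow hϖ0, hϖ]
  linear_combination (-(ord x)) * hε

/-- **[VERT] + [ABEL3] combined.**  For EVERY `g ≠ 0` whose two norms are `m`-th powers up to
constants: `g ^ ((q + 1) * (q² - 1)) = c * R ^ m * g'` with `g' ≡ 1` at the three vertical
valuations. -/
theorem s36a_vert_abel3 (O : ValuationSubring L) (VA VB VC : ValuationSubring E) (N1 N2 : E →* E)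
    (q m : ℕ) (hq : 1 ≤ q) (hm : 1 ≤ m) (hqm : Nat.Coprime q m) (ordA ordB ordC : E → ℤ)
    (hoA : s36a_Ord VA ordA) (hoB : s36a_Ord VB ordB) (hoC : s36a_Ord VC ordC)
    (hVA : ∀ c : L, algebraMap L E c ∈ VA ↔ c ∈ O)
    (hVB : ∀ c : L, algebraMap L E c ∈ VB ↔ c ∈ O)
    (hVC : ∀ c : L, algebraMap L E c ∈ VC ↔ c ∈ O)
    (ϖ : L) (hϖ0 : ϖ ≠ 0) (hϖm : ϖ ∈ O.nonunits) (ε : ℤ) (hε : ε * ε = 1)
    (hϖA : ordA (algebraMap L E ϖ) = ε) (hϖB : ordB (algebraMap L E ϖ) = ε)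
    (hϖC : ordC (algebraMap L E ϖ) = ((q : ℤ) - 1) * ε)
    (zC : E) (hzC0 : zC ≠ 0) (hzC : ordC zC = ε)
    (hϖO : ∀ c : L, c ≠ 0 → ∃ (j : ℤ) (u : L), O.valuation u = 1 ∧ c = ϖ ^ j * u)
    (hN1A : ∀ x : E, x ≠ 0 → ordA (N1 x) = ordA x + ordC x)
    (hN1B : ∀ x : E, x ≠ 0 → ordB (N1 x) = (q : ℤ) * ordB x)
    (hN2A : ∀ x : E, x ≠ 0 → ordA (N2 x) = (q : ℤ) * ordA x)
    (hN2B : ∀ x : E, x ≠ 0 → ordB (N2 x) = ordB x + ordC x)
    (hNc1 : ∀ c : L, N1 (algebraMap L E c) = algebraMap L E c ^ q)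
    (hNc2 : ∀ c : L, N2 (algebraMap L E c) = algebraMap L E c ^ q)
    (hWA3 : ∀ x1 x2 x3 y1 y2 y3 : E, ∃ x : E, (x - x1) * y1 ∈ VA.nonunits ∧
      (x - x2) * y2 ∈ VB.nonunits ∧ (x - x3) * y3 ∈ VC.nonunits)
    (hnA : ∀ x : E, VA.valuation x = 1 → VB.valuation x = 1 → VC.valuation x = 1 →
      N2 x - x ^ q ∈ VA.nonunits)
    (hnB : ∀ x : E, VA.valuation x = 1 → VB.valuation x = 1 → VC.valuation x = 1 →
      N1 x - x ^ q ∈ VB.nonunits)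
    (hnC1 : ∀ x : E, VA.valuation x = 1 → VB.valuation x = 1 → VC.valuation x = 1 →
      ∀ r : L, O.valuation r = 1 → x - algebraMap L E r ∈ VA.nonunits →
        N1 x - algebraMap L E r * x ^ (q - 1) ∈ VC.nonunits)
    (hnC2 : ∀ x : E, VA.valuation x = 1 → VB.valuation x = 1 → VC.valuation x = 1 →
      ∀ r : L, O.valuation r = 1 → x - algebraMap L E r ∈ VB.nonunits →
        N2 x - algebraMap L E r * x ^ (q - 1) ∈ VC.nonunits)
    (hroot : ∀ y : E, VC.valuation y = 1 → ∀ c : L, O.valuation c = 1 →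
      y ^ m - algebraMap L E c ∈ VC.nonunits →
        ∃ u : L, O.valuation u = 1 ∧ y - algebraMap L E u ∈ VC.nonunits)
    (g : E) (hg : g ≠ 0) (c1 c2 : L) (hc1 : c1 ≠ 0) (hc2 : c2 ≠ 0) (r1 r2 : E)
    (h1 : N1 g = algebraMap L E c1 * r1 ^ m) (h2 : N2 g = algebraMap L E c2 * r2 ^ m) :
    ∃ c : L, c ≠ 0 ∧ ∃ R g' : E, R ≠ 0 ∧ g' - 1 ∈ VA.nonunits ∧ g' - 1 ∈ VB.nonunits ∧
      g' - 1 ∈ VC.nonunits ∧
      g ^ ((q + 1) * (q ^ 2 - 1)) = algebraMap L E c * R ^ m * g' := by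
  have hϖE : algebraMap L E ϖ ≠ 0 := (map_ne_zero _).2 hϖ0
  -- prescribed valuations and first-order approximation from `hWA3`
  have hWAv : ∀ t1 t2 t3 : E, t1 ≠ 0 → t2 ≠ 0 → t3 ≠ 0 → ∃ h : E, h ≠ 0 ∧
      VA.valuation h = VA.valuation t1 ∧ VB.valuation h = VB.valuation t2 ∧
      VC.valuation h = VC.valuation t3 := by
    intro t1 t2 t3 ht1 ht2 ht3
    obtain ⟨x, hx1, hx2, hx3⟩ := hWA3 t1 t2 t3 t1⁻¹ t2⁻¹ t3⁻¹
    have e1 := s36wa_val_eq VA ht1 hx1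
    refine ⟨x, ?_, e1, s36wa_val_eq VB ht2 hx2, s36wa_val_eq VC ht3 hx3⟩
    rintro rfl
    rw [map_zero] at e1
    exact (Valuation.ne_zero_iff _).2 ht1 e1.symm
  have hWA : ∀ sA sB sC : E, ∃ R : E, R - sA ∈ VA.nonunits ∧ R - sB ∈ VB.nonunits ∧
      R - sC ∈ VC.nonunits := by
    intro sA sB sC
    obtain ⟨x, hx1, hx2, hx3⟩ := hWA3 sA sB sC 1 1 1
    rw [mul_one] at hx1 hx2 hx3
    exact ⟨x, hx1, hx2, hx3⟩
  obtain ⟨j, h, hh0, hA1, hB1, hC1, c1', c2', r1', r2', hc1', hc2', hn1, hn2⟩ :=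
    s36a_vert O VA VB VC N1 N2 q m hm ordA ordB ordC hoA hoB hoC hVA hVB ϖ hϖ0 ε hε hϖA hϖB hϖC
      zC hzC0 hzC hϖO hN1A hN1B hN2A hN2B hNc1 hNc2 hWAv g hg c1 c2 hc1 hc2 r1 r2 h1 h2
  set g1 : E := g ^ (q + 1) * algebraMap L E ϖ ^ j * (h ^ m)⁻¹ with hg1
  -- normalise the constants
  have hq1A : VA.valuation (g1 ^ q) = 1 := by rw [map_pow, hA1, one_pow]
  have hq1B : VB.valuation (g1 ^ q) = 1 := by rw [map_pow, hB1, one_pow]
  have hu1 : VB.valuation (algebraMap L E c1' * r1' ^ m) = 1 := by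
    rw [← hn1]
    exact s36a_unit_of_sub VB hq1B (hnB g1 hA1 hB1 hC1)
  have hu2 : VA.valuation (algebraMap L E c2' * r2' ^ m) = 1 := by
    rw [← hn2]
    exact s36a_unit_of_sub VA hq1A (hnA g1 hA1 hB1 hC1)
  have hϖ1A : VA.valuation (algebraMap L E ϖ) < 1 :=
    VA.mem_nonunits_iff.1 ((s36a_const_nonunit O VA hVA ϖ).2 hϖm)
  have hϖ1B : VB.valuation (algebraMap L E ϖ) < 1 :=
    VB.mem_nonunits_iff.1 ((s36a_const_nonunit O VB hVB ϖ).2 hϖm)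
  obtain ⟨d1, i1, hd1, he1⟩ := s36a_normalise O VB ϖ hϖO
    (s36a_exists_zpow_of_ord hoB hϖE hε hϖB) hϖ1B hϖ0 hVB hm c1' hc1' r1' hu1
  obtain ⟨d2, i2, hd2, he2⟩ := s36a_normalise O VA ϖ hϖO
    (s36a_exists_zpow_of_ord hoA hϖE hε hϖA) hϖ1A hϖ0 hVA hm c2' hc2' r2' hu2
  obtain ⟨c, hc, R, g', hR0, hgA, hgB, hgC, hfin⟩ := s36a_abel3 O VA VB VC N1 N2 q m hq hm hqm
    hVA hVB hVC hnA hnB hnC1 hnC2 hroot hWA g1 hA1 hB1 hC1 d1 d2 hd1 hd2 _ _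
    (hn1.trans he1) (hn2.trans he2)
  have hc0 : c ≠ 0 := by
    rintro rfl
    rw [map_zero] at hc
    exact zero_ne_one hc
  have hzj : algebraMap L E ϖ ^ j ≠ 0 := zpow_ne_zero _ hϖE
  have hhm : h ^ m ≠ 0 := pow_ne_zero _ hh0
  refine ⟨c * (ϖ ^ (-j)) ^ (q ^ 2 - 1), mul_ne_zero hc0 (pow_ne_zero _ (zpow_ne_zero _ hϖ0)),
    R * h ^ (q ^ 2 - 1), g', mul_ne_zero hR0 (pow_ne_zero _ hh0), hgA, hgB, hgC, ?_⟩
  have hgg : g ^ (q + 1) = g1 * algebraMap L E ϖ ^ (-j) * h ^ m := by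
    rw [hg1, zpow_neg]
    field_simp
  rw [pow_mul, hgg, mul_pow, mul_pow, hfin, map_mul, map_pow, map_zpow₀]
  ring

/-- **[VERT] + [ABEL3] combined**, weak approximation PROVED (`VA VB VC` pairwise incomparable
Noetherian valuation subrings, e.g. DVRs). -/
theorem s36a_vert_abel3_wa (O : ValuationSubring L) (VA VB VC : ValuationSubring E)
    (N1 N2 : E →* E) (q m : ℕ) (hq : 1 ≤ q) (hm : 1 ≤ m) (hqm : Nat.Coprime q m)
    [IsNoetherianRing VA] [IsNoetherianRing VB] [IsNoetherianRing VC]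
    (hAB : ¬ VA ≤ VB) (hBA : ¬ VB ≤ VA) (hAC : ¬ VA ≤ VC) (hCA : ¬ VC ≤ VA)
    (hBC : ¬ VB ≤ VC) (hCB : ¬ VC ≤ VB)
    (ordA ordB ordC : E → ℤ)
    (hoA : s36a_Ord VA ordA) (hoB : s36a_Ord VB ordB) (hoC : s36a_Ord VC ordC)
    (hVA : ∀ c : L, algebraMap L E c ∈ VA ↔ c ∈ O)
    (hVB : ∀ c : L, algebraMap L E c ∈ VB ↔ c ∈ O)
    (hVC : ∀ c : L, algebraMap L E c ∈ VC ↔ c ∈ O)
    (ϖ : L) (hϖ0 : ϖ ≠ 0) (hϖm : ϖ ∈ O.nonunits) (ε : ℤ) (hε : ε * ε = 1)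
    (hϖA : ordA (algebraMap L E ϖ) = ε) (hϖB : ordB (algebraMap L E ϖ) = ε)
    (hϖC : ordC (algebraMap L E ϖ) = ((q : ℤ) - 1) * ε)
    (zC : E) (hzC0 : zC ≠ 0) (hzC : ordC zC = ε)
    (hϖO : ∀ c : L, c ≠ 0 → ∃ (j : ℤ) (u : L), O.valuation u = 1 ∧ c = ϖ ^ j * u)
    (hN1A : ∀ x : E, x ≠ 0 → ordA (N1 x) = ordA x + ordC x)
    (hN1B : ∀ x : E, x ≠ 0 → ordB (N1 x) = (q : ℤ) * ordB x)
    (hN2A : ∀ x : E, x ≠ 0 → ordA (N2 x) = (q : ℤ) * ordA x)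
    (hN2B : ∀ x : E, x ≠ 0 → ordB (N2 x) = ordB x + ordC x)
    (hNc1 : ∀ c : L, N1 (algebraMap L E c) = algebraMap L E c ^ q)
    (hNc2 : ∀ c : L, N2 (algebraMap L E c) = algebraMap L E c ^ q)
    (hnA : ∀ x : E, VA.valuation x = 1 → VB.valuation x = 1 → VC.valuation x = 1 →
      N2 x - x ^ q ∈ VA.nonunits)
    (hnB : ∀ x : E, VA.valuation x = 1 → VB.valuation x = 1 → VC.valuation x = 1 →
      N1 x - x ^ q ∈ VB.nonunits)
    (hnC1 : ∀ x : E, VA.valuation x = 1 → VB.valuation x = 1 → VC.valuation x = 1 →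
      ∀ r : L, O.valuation r = 1 → x - algebraMap L E r ∈ VA.nonunits →
        N1 x - algebraMap L E r * x ^ (q - 1) ∈ VC.nonunits)
    (hnC2 : ∀ x : E, VA.valuation x = 1 → VB.valuation x = 1 → VC.valuation x = 1 →
      ∀ r : L, O.valuation r = 1 → x - algebraMap L E r ∈ VB.nonunits →
        N2 x - algebraMap L E r * x ^ (q - 1) ∈ VC.nonunits)
    (hroot : ∀ y : E, VC.valuation y = 1 → ∀ c : L, O.valuation c = 1 →
      y ^ m - algebraMap L E c ∈ VC.nonunits →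
        ∃ u : L, O.valuation u = 1 ∧ y - algebraMap L E u ∈ VC.nonunits)
    (g : E) (hg : g ≠ 0) (c1 c2 : L) (hc1 : c1 ≠ 0) (hc2 : c2 ≠ 0) (r1 r2 : E)
    (h1 : N1 g = algebraMap L E c1 * r1 ^ m) (h2 : N2 g = algebraMap L E c2 * r2 ^ m) :
    ∃ c : L, c ≠ 0 ∧ ∃ R g' : E, R ≠ 0 ∧ g' - 1 ∈ VA.nonunits ∧ g' - 1 ∈ VB.nonunits ∧
      g' - 1 ∈ VC.nonunits ∧
      g ^ ((q + 1) * (q ^ 2 - 1)) = algebraMap L E c * R ^ m * g' :=
  s36a_vert_abel3 O VA VB VC N1 N2 q m hq hm hqm ordA ordB ordC hoA hoB hoC hVA hVB hVC ϖ hϖ0 hϖm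
    ε hε hϖA hϖB hϖC zC hzC0 hzC hϖO hN1A hN1B hN2A hN2B hNc1 hNc2
    (s36wa_approx3 VA VB VC hAB hBA hAC hCA hBC hCB (s36wa_arch_of_noeth VA)
      (s36wa_arch_of_noeth VB) (s36wa_arch_of_noeth VC))
    hnA hnB hnC1 hnC2 hroot g hg c1 c2 hc1 hc2 r1 r2 h1 h2

end Vert

end Fermat.Agent.S36
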