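/-
Project S36 (Carayol), cell [ABEL3], the hypothesis (root) in a Laurent series field (helper1).
Prefix `s36a_`.

`k` a field, `m` invertible in `k`: an `m`-th root of a nonzero constant in `k⟦X⟧` / `k⸨X⸩` is a
constant.  [The residue fields of the vertical valuations embed into `k((X))` over `k` (`gq_res`);
so `y ^ m ≡ c` with `c` a constant unit forces `y ≡` a constant unit.]
-/
import Mathlib

set_option autoImplicit false
set_option linter.unusedSectionVars false
set_option linter.unusedVariables false

namespace Fermat.Agent.S36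

open PowerSeries

variable {k : Type*} [Field k]

/-- a power series with constant coefficient `1` and `w ^ m = 1`, `m` invertible, is `1`. -/
theorem s36a_ps_root_one (m : ℕ) (hm : (m : k) ≠ 0) (w : k⟦X⟧) (hw : constantCoeff w = 1)
    (h : w ^ m = 1) : w = 1 := by
  have h1 : (∑ i ∈ Finset.range m, w ^ i) * (w - 1) = 0 := by
    rw [geom_sum_mul, h, sub_self]
  have h2 : (∑ i ∈ Finset.range m, w ^ i) ≠ 0 := by
    intro h0
    have := congrArg (constantCoeff (R := k)) h0
    rw [map_sum, map_zero] at this
    simp only [map_pow, hw, one_pow, Finset.sum_const, Finset.card_range, nsmul_eq_mul,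
      mul_one] at this
    exact hm this
  rcases mul_eq_zero.1 h1 with h3 | h3
  · exact absurd h3 h2
  · exact sub_eq_zero.1 h3

/-- an `m`-th root of a nonzero constant in `k⟦X⟧` is a constant (`m` invertible in `k`). -/
theorem s36a_ps_root_const (m : ℕ) (hm : (m : k) ≠ 0) (p : k⟦X⟧) (c : k) (hc : c ≠ 0)
    (h : p ^ m = C c) : p = C (constantCoeff p) := by
  set a := constantCoeff p with ha
  have ham : a ^ m = c := by
    have := congrArg (constantCoeff (R := k)) h
    rwa [map_pow, constantCoeff_C] at this
  have ha0 : a ≠ 0 := by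
    rintro h0
    rw [h0] at ham
    have hm0 : m ≠ 0 := by
      rintro rfl
      exact hm (by simp)
    rw [zero_pow hm0] at ham
    exact hc ham.symm
  have hw : (C a⁻¹ * p) ^ m = 1 := by
    rw [mul_pow, h, ← map_pow, ← map_mul, ← ham, inv_pow, inv_mul_cancel₀ (pow_ne_zero m ha0),
      map_one]
  have hw1 : constantCoeff (C a⁻¹ * p) = 1 := by
    rw [map_mul, constantCoeff_C, ← ha, inv_mul_cancel₀ ha0]
  have := s36a_ps_root_one m hm _ hw1 hw
  have h2 : C a * (C a⁻¹ * p) = p := by
    rw [← mul_assoc, ← map_mul, mul_inv_cancel₀ ha0, map_one, one_mul]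
  rw [← h2, this, mul_one]

/-- **(root) in `k((X))`**: an `m`-th root of a nonzero constant in `k⸨X⸩` is a nonzero constant
(`m` invertible in `k`). -/
theorem s36a_laurent_root (m : ℕ) (hm : (m : k) ≠ 0) (y : LaurentSeries k) (c : k) (hc : c ≠ 0)
    (h : y ^ m = HahnSeries.C c) : ∃ u : k, u ≠ 0 ∧ u ^ m = c ∧ y = HahnSeries.C u := by
  have hm0 : m ≠ 0 := by
    rintro rfl
    exact hm (by simp)
  have hy0 : y ≠ 0 := by
    rintro rfl
    rw [zero_pow hm0] at h
    have := congrArg (fun z : LaurentSeries k => z.coeff 0) h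
    simp only [HahnSeries.coeff_zero, HahnSeries.C_apply, HahnSeries.coeff_single_same] at this
    exact hc this.symm
  have hord : y.order = 0 := by
    have h1 := congrArg HahnSeries.order h
    rw [HahnSeries.order_pow, HahnSeries.order_C, nsmul_eq_mul] at h1
    rcases mul_eq_zero.1 h1 with h2 | h2
    · exact absurd (by exact_mod_cast h2) hm0
    · exact h2
  have hy : y = HahnSeries.ofPowerSeries ℤ k y.powerSeriesPart := by
    have h3 := y.single_order_mul_powerSeriesPart
    rw [hord] at h3
    have h4 : (HahnSeries.single (0 : ℤ) (1 : k) : LaurentSeries k) = 1 := rfl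
    rw [h4, one_mul] at h3
    exact h3.symm
  set p := y.powerSeriesPart with hp
  have hpm : p ^ m = C c := by
    apply HahnSeries.ofPowerSeries_injective (Γ := ℤ)
    rw [map_pow, ← hy, h, HahnSeries.ofPowerSeries_C]
  have hpc := s36a_ps_root_const m hm p c hc hpm
  have hu : (constantCoeff p) ^ m = c := by
    have := congrArg (constantCoeff (R := k)) hpm
    rwa [map_pow, constantCoeff_C] at this
  refine ⟨constantCoeff p, ?_, hu, ?_⟩
  · rintro h0
    rw [h0, zero_pow hm0] at hu
    exact hc hu.symm
  · rw [hy, hpc, HahnSeries.ofPowerSeries_C, constantCoeff_C]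

end Fermat.Agent.S36
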